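import Fermat.Agent.NF.New5
import Fermat.Agent.ESCore.Univ

set_option autoImplicit false

/-!
# Integral functionals on the period lattice attached to newforms
-/

open Matrix Matrix.SpecialLinearGroup CongruenceSubgroup ModularForm ModularFormClass CuspForm
open Fermat.Agent.ES Fermat.Agent.ESCore
open Multiplicative (toAdd ofAdd)
open scoped MatrixGroups

noncomputable section

namespace Fermat.Agent.NF

/-- extension of ring homomorphisms to integral extensions -/
theorem exists_extension {R S M : Type*} [CommRing R] [IsDomain R] [CommRing S] [IsDomain S]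
    [Field M] [IsAlgClosed M] (j : R →+* S) (hj : Function.Injective j) (i : R →+* M)
    (hi : Function.Injective i) (hint : j.IsIntegral) : ∃ φ : S →+* M, φ.comp j = i := by
  letI := j.toAlgebra
  letI := i.toAlgebra
  have h1 : FaithfulSMul R S := (faithfulSMul_iff_algebraMap_injective R S).mpr hj
  have h2 : FaithfulSMul R M := (faithfulSMul_iff_algebraMap_injective R M).mpr hi
  have h3 : Algebra.IsIntegral R S := ⟨hint⟩
  have h4 : Module.IsTorsionFree R S := inferInstance
  have h5 : Module.IsTorsionFree R M := inferInstance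
  let f : S →ₐ[R] M := IsAlgClosed.lift
  exact ⟨f.toRingHom, RingHom.ext fun x => f.commutes x⟩

theorem injective_of_integral {R O : Type*} [CommRing R] [IsDomain R] [CommRing O] [CharZero O]
    [Nontrivial O]
    (h : Algebra.IsIntegral ℤ R) (f : R →+* O) : Function.Injective f := by
  rw [RingHom.injective_iff_ker_eq_bot]
  refine Ideal.eq_bot_of_comap_eq_bot (R := ℤ) ?_
  rw [eq_bot_iff]
  intro n hn
  rw [Ideal.mem_comap, RingHom.mem_ker, ← RingHom.comp_apply, eq_intCast (f.comp (algebraMap ℤ R)),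
    Int.cast_eq_zero] at hn
  exact hn

variable {N : ℕ} [NeZero N] {g : CuspForm (Gamma0 N) 2}

/-- a system of eigenvalues is determined by the `T_l` -/
theorem chi_eq (hg : g.IsNormalizedEigenform) {S : Set ℕ}
    (hNS : ∀ q : ℕ, q.Prime → q ∣ N → q ∈ S) (chi : CuspForm.heckeAlgebra N 2 S →+* ℂ)
    (hchi : ∀ (l : ℕ) (hl : l.Prime) (hlN : ¬ l ∣ N) (hlS : l ∉ S),
      chi (CuspForm.heckeAlgebra.T hl hlN hlS) = qCoeff g l) (t : CuspForm.heckeAlgebra N 2 S) :
    chi t = eigenHomC hg S t := by
  obtain ⟨t, ht⟩ := t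
  induction ht using Algebra.adjoin_induction with
  | mem x hx =>
    rcases hx with ⟨l, hl, hlN, hlS, rfl⟩ | ⟨q, hqN, hq, hqS, rfl⟩
    · refine (hchi l hl hlN hlS).trans ?_
      exact (eigenHom_T hg hl hlN hlS).symm
    · exact absurd (hNS q hq hqN) hqS
  | algebraMap r =>
    have h1 : (⟨algebraMap ℤ _ r, Subalgebra.algebraMap_mem _ r⟩ : CuspForm.heckeAlgebra N 2 S) =
      algebraMap ℤ _ r := rfl
    change chi (algebraMap ℤ _ r) = eigenHomC hg S (algebraMap ℤ _ r)
    rw [eq_intCast, map_intCast, map_intCast]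
  | add x y hx hy h1 h2 =>
    change chi (⟨x, hx⟩ + ⟨y, hy⟩) = eigenHomC hg S (⟨x, hx⟩ + ⟨y, hy⟩)
    rw [map_add, map_add, h1, h2]
  | mul x y hx hy h1 h2 =>
    change chi (⟨x, hx⟩ * ⟨y, hy⟩) = eigenHomC hg S (⟨x, hx⟩ * ⟨y, hy⟩)
    rw [map_mul, map_mul, h1, h2]

theorem exists_phi (hg : g.IsNormalizedEigenform) {S : Set ℕ}
    {O : Type} [CommRing O] [IsDomain O] [CharZero O]
    (chi : CuspForm.heckeAlgebra N 2 S →+* ℂ) (hchi : ∀ t, chi t = eigenHomC hg S t)
    (iota : chi.range →+* O) :
    ∃ φ : integralClosure ℤ ℂ →+* AlgebraicClosure (FractionRing O), ∀ t,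
      φ (eigenHom hg S t) = algebraMap O _ (iota (chi.rangeRestrict t)) := by
  have hint : ∀ x : chi.range, (x : ℂ) ∈ integralClosure ℤ ℂ := by
    rintro ⟨_, t, rfl⟩
    change chi t ∈ integralClosure ℤ ℂ
    rw [hchi]
    exact eigenHomC_integral hg t
  let j : chi.range →+* integralClosure ℤ ℂ :=
    (chi.range.subtype).codRestrict (integralClosure ℤ ℂ).toSubring hint
  have hjinj : Function.Injective j := by
    intro x y hxy
    have h1 : (j x).1 = (j y).1 := congrArg Subtype.val hxy
    exact Subtype.ext h1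
  have hR : Algebra.IsIntegral ℤ chi.range := by
    refine ⟨fun x => ?_⟩
    obtain ⟨P, hP, hPx⟩ := hint x
    refine ⟨P, hP, ?_⟩
    apply Subtype.ext
    have h1 := Polynomial.hom_eval₂ P (algebraMap ℤ chi.range) chi.range.subtype x
    change chi.range.subtype (Polynomial.eval₂ (algebraMap ℤ chi.range) x P) = _
    rw [h1]
    have h2 : chi.range.subtype.comp (algebraMap ℤ chi.range) = algebraMap ℤ ℂ :=
      RingHom.ext_int _ _
    rw [h2]
    exact hPx
  have hiota : Function.Injective iota := injective_of_integral hR iota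
  have hjint : j.IsIntegral := by
    intro x
    obtain ⟨P, hP, hPx⟩ := x.2
    refine ⟨P.map (algebraMap ℤ chi.range), hP.map _, ?_⟩
    rw [Polynomial.eval₂_map]
    apply Subtype.ext
    have h1 := Polynomial.hom_eval₂ P (j.comp (algebraMap ℤ chi.range))
      (integralClosure ℤ ℂ).val.toRingHom x
    change (integralClosure ℤ ℂ).val.toRingHom (Polynomial.eval₂ _ x P) = _
    rw [h1]
    have h2 : (integralClosure ℤ ℂ).val.toRingHom.comp (j.comp (algebraMap ℤ chi.range)) =
        algebraMap ℤ ℂ := RingHom.ext_int _ _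
    rw [h2]
    exact hPx
  have hi : Function.Injective ((algebraMap O (AlgebraicClosure (FractionRing O))).comp iota) := by
    have h1 : Function.Injective (algebraMap O (AlgebraicClosure (FractionRing O))) := by
      rw [IsScalarTower.algebraMap_eq O (FractionRing O) (AlgebraicClosure (FractionRing O))]
      have h2 := (algebraMap (FractionRing O) (AlgebraicClosure (FractionRing O))).injective
      exact h2.comp (IsFractionRing.injective O (FractionRing O))
    exact h1.comp hiota
  obtain ⟨φ, hφ⟩ := exists_extension j hjinj _ hi hjint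
  refine ⟨φ, fun t => ?_⟩
  have h1 : j (chi.rangeRestrict t) = eigenHom hg S t := Subtype.ext (hchi t)
  rw [← h1]
  exact RingHom.congr_fun hφ (chi.rangeRestrict t)

theorem comp_zpow_char {G B B' : Type*} [Group G] [CommGroup B] [CommGroup B'] (f : B →* B')
    (χ : G →* B) (e : ℤ) : (f.comp χ) ^ e = f.comp (χ ^ e) := by
  refine MonoidHom.ext fun γ => ?_
  change (f (χ γ)) ^ e = f ((χ γ) ^ e)
  rw [map_zpow]

theorem LatM_smul_mono {S : Set ℕ} (t : CuspForm.heckeAlgebra N 2 S)
    (t' : CuspForm.heckeAlgebra N 2 ∅) (ht : t.1 = t'.1) (x : LatM N S) :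
    (t • x : LatM N S) = (t' • (show LatM N ∅ from x) : LatM N ∅) := by
  apply Subtype.ext
  have h1 := LatM_smul_coe t x
  have h2 := LatM_smul_coe t' (show LatM N ∅ from x)
  rw [ht] at h1
  exact h1.trans h2.symm

open Univ in
/-- the character with values in `O` attached to a functional -/
def oChar {S : Finset ℕ} {O : Type} [CommRing O] (v : LatM N (↑S : Set ℕ) →+ O) :
    Gamma0 N →* Multiplicative O := (AddMonoidHom.toMultiplicative v).comp (perM N S)

/-- **Integral functionals attached to newforms.** -/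
theorem exists_intVec (hg : g.IsNewform) {S : Finset ℕ}
    {O : Type} [CommRing O] [IsDomain O] [CharZero O]
    (chi : CuspForm.heckeAlgebra N 2 (↑S : Set ℕ) →+* ℂ)
    (hchi : ∀ t, chi t = eigenHomC hg.1 (↑S : Set ℕ) t) (iota : chi.range →+* O) :
    ∃ v : LatM N (↑S : Set ℕ) →+ O, v ≠ 0 ∧
      (∀ (t : CuspForm.heckeAlgebra N 2 (↑S : Set ℕ)) x,
        v (t • x) = iota (chi.rangeRestrict t) * v x) ∧
      (∀ (q : ℕ) (hq : q.Prime) (K : ℕ) (hN : N = q * K), ¬ q ∣ K →
        ∃ ε : ℤ, (ε = 1 ∨ ε = -1) ∧ qCoeff g q = ε ∧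
          heckeCharU hq.ne_zero (hN ▸ dvd_mul_right _ _) (oChar v) = (oChar v) ^ ε ∧
          ∀ (M : ℕ) [NeZero q] [NeZero M] (Bz : LG.Bez q M) (hK : K ∣ M),
            Bz.wChar hK hN (oChar v) = (oChar v) ^ (-ε)) := by
  classical
  let F := FractionRing O
  let A := AlgebraicClosure F
  obtain ⟨φ, hφ⟩ := exists_phi hg.1 chi hchi iota
  obtain ⟨v₀, hv₀, hv₀T, hNC, hne⟩ := exists_newChar (A := A) hg.1 φ
  obtain ⟨x₀, hx₀⟩ : ∃ x, v₀ x ≠ 0 := by
    by_contra hcon
    push Not at hcon
    exact hv₀ (AddMonoidHom.ext hcon)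
  obtain ⟨μ, hμ⟩ : ∃ μ : Module.Dual F A, μ (v₀ x₀) ≠ 0 := by
    by_contra hcon
    push Not at hcon
    exact hx₀ ((Module.forall_dual_apply_eq_zero_iff F (v₀ x₀)).mp hcon)
  -- clear denominators
  have hfg : AddGroup.FG (perLat N) := (AddGroup.fg_iff_addSubgroup_fg _).mpr perLat_fg
  obtain ⟨s, hs⟩ := AddGroup.fg_def.mp hfg
  obtain ⟨D, hD⟩ := IsLocalization.exist_integer_multiples_of_finset (nonZeroDivisors O)
    (s.image fun x : perLat N => μ (v₀ (show LatM N ∅ from x)))
  have hD' : ∀ x : perLat N, ∃ y : O, algebraMap O F y = (D : O) • μ (v₀ (show LatM N ∅ from x)) := by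
    intro x
    have hx : x ∈ AddSubgroup.closure (s : Set (perLat N)) := by rw [hs]; trivial
    induction hx using AddSubgroup.closure_induction with
    | mem x hx =>
      obtain ⟨y, hy⟩ := hD _ (Finset.mem_image_of_mem _ hx)
      exact ⟨y, hy⟩
    | zero =>
      refine ⟨0, ?_⟩
      have : v₀ (show LatM N ∅ from (0 : perLat N)) = 0 := map_zero v₀
      rw [this, map_zero, map_zero, smul_zero]
    | add x y _ _ hx hy =>
      obtain ⟨a, ha⟩ := hx
      obtain ⟨b, hb⟩ := hy
      refine ⟨a + b, ?_⟩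
      have : v₀ (show LatM N ∅ from (x + y : perLat N)) = v₀ (show LatM N ∅ from x) +
        v₀ (show LatM N ∅ from y) := map_add v₀ _ _
      rw [this, map_add, map_add, smul_add, ha, hb]
    | neg x _ hx =>
      obtain ⟨a, ha⟩ := hx
      refine ⟨-a, ?_⟩
      have : v₀ (show LatM N ∅ from (-x : perLat N)) = -v₀ (show LatM N ∅ from x) := map_neg v₀ _
      rw [this, map_neg, map_neg, smul_neg, ha]
  choose w hw using hD'
  have hinj : Function.Injective (algebraMap O F) := IsFractionRing.injective O F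
  let f₀ : A →+ F := (DistribSMul.toAddMonoidHom F (D : O)).comp μ.toAddMonoidHom
  have hf₀ : ∀ a, f₀ a = (D : O) • μ a := fun a => rfl
  let v : LatM N (↑S : Set ℕ) →+ O :=
    { toFun := fun x => w x
      map_zero' := hinj (by
        rw [hw, map_zero]
        have : v₀ (show LatM N ∅ from (0 : perLat N)) = 0 := map_zero v₀
        exact (congrArg (fun z => (D : O) • μ z) this).trans (by rw [map_zero, smul_zero]))
      map_add' := fun x y => hinj (by
        have : v₀ (show LatM N ∅ from (x + y : perLat N)) = v₀ (show LatM N ∅ from x) +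
          v₀ (show LatM N ∅ from y) := map_add v₀ _ _
        refine (hw (x + y)).trans ?_
        rw [map_add, hw, hw]
        exact (congrArg (fun z => (D : O) • μ z) this).trans (by rw [map_add, smul_add])) }
  have hv : ∀ x : LatM N (↑S : Set ℕ), algebraMap O F (v x) = f₀ (v₀ (show LatM N ∅ from x)) :=
    fun x => hw x
  have hchar : (AddMonoidHom.toMultiplicative (algebraMap O F).toAddMonoidHom).comp (oChar v) =
      (AddMonoidHom.toMultiplicative f₀).comp (vChar v₀) := by
    ext γ
    exact congrArg ofAdd (hv _)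
  have hinj' : ∀ χ χ' : Gamma0 N →* Multiplicative O,
      (AddMonoidHom.toMultiplicative (algebraMap O F).toAddMonoidHom).comp χ =
      (AddMonoidHom.toMultiplicative (algebraMap O F).toAddMonoidHom).comp χ' → χ = χ' := by
    intro χ χ' h
    ext γ
    exact hinj (DFunLike.congr_fun h γ)
  refine ⟨v, ?_, ?_, ?_⟩
  · intro h0
    have h1 := hv (show LatM N (↑S : Set ℕ) from x₀)
    rw [h0, AddMonoidHom.zero_apply, map_zero] at h1
    have h2 : (D : O) • μ (v₀ x₀) = 0 := h1.symm
    rw [Algebra.smul_def] at h2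
    rcases mul_eq_zero.mp h2 with h3 | h3
    · exact nonZeroDivisors.ne_zero D.2 (hinj (by rw [h3, map_zero]))
    · exact hμ h3
  · intro t x
    apply hinj
    rw [hv, map_mul, hv]
    have ht' : t.1 ∈ CuspForm.heckeAlgebra N 2 ∅ :=
      Algebra.adjoin_mono (CuspForm.heckeGenerators_mono (Set.empty_subset _)) t.2
    have e1 := LatM_smul_mono t ⟨t.1, ht'⟩ rfl x
    have e2 : v₀ (show LatM N ∅ from t • x) = φ (eigenHom hg.1 ∅ ⟨t.1, ht'⟩) *
        v₀ (show LatM N ∅ from x) := by
      rw [← hv₀T]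
      exact congrArg v₀ e1
    have e3 : eigenHom hg.1 ∅ ⟨t.1, ht'⟩ = eigenHom hg.1 (↑S : Set ℕ) t := Subtype.ext rfl
    rw [e3, hφ, IsScalarTower.algebraMap_apply O F A, ← Algebra.smul_def] at e2
    refine (congrArg f₀ e2).trans ?_
    rw [hf₀, map_smul, hf₀, smul_eq_mul, mul_smul_comm]
  · intro q hq K hN hqK
    obtain ⟨ε, hε, h1, h2, h3, h4⟩ := hNC.sign_char hne hg hq hN hqK
    refine ⟨ε, hε, h1, ?_, fun M _ _ Bz hK => ?_⟩
    · apply hinj'
      rw [← heckeCharU_comp, hchar, h3 (Multiplicative F) (AddMonoidHom.toMultiplicative f₀),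
        ← hchar, comp_zpow_char]
    · apply hinj'
      have e1 : (AddMonoidHom.toMultiplicative (algebraMap O F).toAddMonoidHom).comp
          (Bz.wChar hK hN (oChar v)) = Bz.wChar hK hN
          ((AddMonoidHom.toMultiplicative (algebraMap O F).toAddMonoidHom).comp (oChar v)) := by
        rw [LG.Bez.wChar, LG.Bez.wChar, CosetSys.trans_comp]
      rw [e1, hchar, h4 (Multiplicative F) (AddMonoidHom.toMultiplicative f₀) M Bz hK, ← hchar,
        comp_zpow_char]

end Fermat.Agent.NF
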