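import Fermat.Agent.LG.WSer

set_option autoImplicit false

/-!
# Restriction of characters to a smaller level; compatibility with `T_l`, `U_q`, `w_q`
-/

open Matrix.SpecialLinearGroup CongruenceSubgroup ModularForm
open Fermat.Agent.ESCore Fermat.Agent.LG
open scoped MatrixGroups

noncomputable section

namespace Fermat.Agent.NF

variable {N₀ N N' M q l : ℕ} {B : Type*} [CommGroup B]

theorem Gamma0_le (h : N₀ ∣ N) : Gamma0 N ≤ Gamma0 N₀ := by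
  intro γ hγ
  rw [Gamma0_mem, ZMod.intCast_zmod_eq_zero_iff_dvd] at hγ ⊢
  exact dvd_trans (by exact_mod_cast h) hγ

/-- the inclusion `Γ₀(N) → Γ₀(N₀)` -/
def inc (h : N₀ ∣ N) : Gamma0 N →* Gamma0 N₀ := Subgroup.inclusion (Gamma0_le h)

theorem coe_inc (h : N₀ ∣ N) (γ : Gamma0 N) : ((inc h γ : Gamma0 N₀) : SL(2, ℤ)) = γ := rfl

/-- restriction of characters to a smaller level -/
def resC (h : N₀ ∣ N) (χ : Gamma0 N₀ →* B) : Gamma0 N →* B := χ.comp (inc h)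

theorem resC_apply (h : N₀ ∣ N) (χ : Gamma0 N₀ →* B) (γ : Gamma0 N) :
    resC h χ γ = χ (inc h γ) := rfl

theorem resC_mul (h : N₀ ∣ N) (χ χ' : Gamma0 N₀ →* B) :
    resC h (χ * χ') = resC h χ * resC h χ' := rfl

theorem resC_pow (h : N₀ ∣ N) (χ : Gamma0 N₀ →* B) (n : ℕ) : resC h (χ ^ n) = resC h χ ^ n := rfl

theorem resC_inv (h : N₀ ∣ N) (χ : Gamma0 N₀ →* B) : resC h χ⁻¹ = (resC h χ)⁻¹ := rfl

theorem resC_zpow (h : N₀ ∣ N) (χ : Gamma0 N₀ →* B) (n : ℤ) : resC h (χ ^ n) = resC h χ ^ n := rfl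

theorem resC_one (h : N₀ ∣ N) : resC h (1 : Gamma0 N₀ →* B) = 1 := rfl

theorem resC_comp {B' : Type*} [CommGroup B'] (h : N₀ ∣ N) (f : B →* B') (χ : Gamma0 N₀ →* B) :
    resC h (f.comp χ) = f.comp (resC h χ) := rfl

theorem resC_isPar (h : N₀ ∣ N) {χ : Gamma0 N₀ →* ℂˣ} (hχ : IsPar χ) : IsPar (resC h χ) :=
  fun γ hγ => hχ (inc h γ) hγ

/-- restriction, as a homomorphism -/
def resHom (B : Type*) [CommGroup B] (h : N₀ ∣ N) : (Gamma0 N₀ →* B) →* (Gamma0 N →* B) where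
  toFun := resC h
  map_one' := resC_one h
  map_mul' := resC_mul h

theorem trans_resC (h : N₀ ∣ N) {ι : Type*} [Fintype ι] (S : CosetSys (gam N) ι)
    (S₀ : CosetSys (gam N₀) ι) (hS : S.δ = S₀.δ) (χ : Gamma0 N₀ →* B) :
    S.trans (gam_injective N) (resC h χ) = resC h (S₀.trans (gam_injective N₀) χ) := by
  ext γ
  rw [CosetSys.trans_apply', resC_apply, CosetSys.trans_apply (gam_injective N₀) S₀ χ (inc h γ)
    (fun x => inc h (S.coc γ x)) (S.tgt γ) (fun x => by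
      rw [← hS]
      exact S.spec γ x)]
  rfl

theorem heckeChar_resC (h : N₀ ∣ N) (hl : l.Prime) (hlN : ¬ l ∣ N) (hlN₀ : ¬ l ∣ N₀)
    (χ : Gamma0 N₀ →* B) :
    heckeChar hl hlN (resC h χ) = resC h (heckeChar hl hlN₀ χ) :=
  trans_resC h (heckeSys hl hlN) (heckeSys hl hlN₀) rfl χ

theorem heckeCharU_resC (h : N₀ ∣ N) (hq : q ≠ 0) (hqN : q ∣ N) (hqN₀ : q ∣ N₀)
    (χ : Gamma0 N₀ →* B) :
    heckeCharU hq hqN (resC h χ) = resC h (heckeCharU hq hqN₀ χ) :=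
  trans_resC h (heckeSysU hq hqN) (heckeSysU hq hqN₀) rfl χ

theorem wChar_resC [NeZero q] [NeZero M] [NeZero N] [NeZero N₀] (h : N₀ ∣ N) {K₀ K : ℕ}
    (Bz : Bez q M) (hK : K ∣ M) (hK₀ : K₀ ∣ M) (hN : N = q * K) (hN₀ : N₀ = q * K₀)
    (χ : Gamma0 N₀ →* B) :
    Bz.wChar hK hN (resC h χ) = resC h (Bz.wChar hK₀ hN₀ χ) :=
  trans_resC h (Bz.wSys hK hN) (Bz.wSys hK₀ hN₀) rfl χ

/-- the kernel of the restriction is bounded -/
theorem exists_bound [NeZero N] (h : N₀ ∣ N) : ∃ e : ℕ, 0 < e ∧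
    ∀ (B : Type) [CommGroup B] (χ : Gamma0 N₀ →* B), resC h χ = 1 → χ ^ e = 1 := by
  set H : Subgroup (Gamma0 N₀) := (inc h).range with hH
  have hfin : H.FiniteIndex := by
    have h1 : (Gamma0 N).FiniteIndex := inferInstance
    have h2 : H = (Gamma0 N).subgroupOf (Gamma0 N₀) := by
      ext γ
      rw [hH, MonoidHom.mem_range, Subgroup.mem_subgroupOf]
      constructor
      · rintro ⟨δ, rfl⟩
        exact δ.2
      · intro hγ
        exact ⟨⟨γ, hγ⟩, rfl⟩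
    rw [h2]
    infer_instance
  refine ⟨H.index.factorial, Nat.factorial_pos _, fun B _ χ hχ => ?_⟩
  ext γ
  obtain ⟨n, hn0, hn1, hn⟩ := H.exists_pow_mem_of_index_ne_zero hfin.index_ne_zero γ
  obtain ⟨δ, hδ⟩ := hn
  have h1 : χ (γ ^ n) = 1 := by
    rw [← hδ]
    exact DFunLike.congr_fun hχ δ
  rw [MonoidHom.pow_apply, MonoidHom.one_apply, ← map_pow]
  obtain ⟨m, hm⟩ := Nat.dvd_factorial hn0 hn1
  rw [hm, pow_mul, map_pow, h1, one_pow]

end Fermat.Agent.NF
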