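import Fermat.Agent.NF.New
import Fermat.Agent.LG.WSer

set_option autoImplicit false

/-!
# Characters attached to newforms: conversions
-/

open UpperHalfPlane hiding I
open Matrix Matrix.SpecialLinearGroup CongruenceSubgroup ModularForm ModularFormClass
open Fermat.Agent.ES Fermat.Agent.ESCore Fermat.Agent.DS Fermat.Agent.RT.Ihara
open Multiplicative (toAdd ofAdd)
open scoped MatrixGroups

noncomputable section

namespace Fermat.Agent.NF

variable {N N' M q l : ℕ} {A : Type*} [CommRing A]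

/-- the function on `SL(2, ℤ)` attached to a homomorphism of `Γ₀(N)` -/
def ofChar {A : Type*} [AddCommGroup A] (χ : Gamma0 N →* Multiplicative A) (γ : SL(2, ℤ)) : A :=
  open Classical in if h : γ ∈ Gamma0 N then toAdd (χ ⟨γ, h⟩) else 0

theorem ofChar_coe {A : Type*} [AddCommGroup A] (χ : Gamma0 N →* Multiplicative A)
    (γ : Gamma0 N) : ofChar χ (γ : SL(2, ℤ)) = toAdd (χ γ) := by
  rw [ofChar, dif_pos γ.2]

theorem ofChar_mem {A : Type*} [AddCommGroup A] (χ : Gamma0 N →* Multiplicative A)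
    {γ : SL(2, ℤ)} (h : γ ∈ Gamma0 N) : ofChar χ γ = toAdd (χ ⟨γ, h⟩) := dif_pos h

theorem addOn_ofChar {A : Type*} [AddCommGroup A] (χ : Gamma0 N →* Multiplicative A) :
    AddOn (Gamma0 N) (ofChar χ) := by
  intro g hg h hh
  rw [ofChar_mem χ hg, ofChar_mem χ hh, ofChar_mem χ (mul_mem hg hh), ← toAdd_mul, ← map_mul]
  rfl

theorem toAdd_trans {A : Type*} [AddCommGroup A] {ι : Type*} [Fintype ι]
    (S : CosetSys (gam N) ι) {D : ι → Mat}
    (hS : ∀ x, (S.δ x).1 = (D x).map (Int.cast : ℤ → ℝ)) (H : Corr (Gamma0 N) (Gamma0 N) D)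
    (χ : Gamma0 N →* Multiplicative A) (γ : Gamma0 N) :
    toAdd (S.trans (gam_injective N) χ γ) = opc (Gamma0 N) D (ofChar χ) γ := by
  obtain ⟨σ, γ', hγ', e⟩ := H.exists_perm γ.2
  rw [H.opc_eq (addOn_ofChar χ) γ.2 hγ' e, CosetSys.trans_apply (gam_injective N) S χ γ
    (fun x => ⟨γ' x, hγ' x⟩) σ (fun x => gl_of_int (hS x) (hS _) (e x)), toAdd_prod]
  exact Finset.sum_congr rfl fun x _ => (ofChar_mem χ (hγ' x)).symm

theorem toAdd_heckeChar {A : Type*} [AddCommGroup A] (hl : l.Prime) (hlN : ¬ l ∣ N)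
    (χ : Gamma0 N →* Multiplicative A) (γ : Gamma0 N) :
    toAdd (heckeChar hl hlN χ γ) = opc (Gamma0 N) (Mx l) (ofChar χ) γ :=
  toAdd_trans (heckeSys hl hlN) (val_hdelta hl.ne_zero) (corr_T hl hlN) χ γ

theorem val_heckeMatrix' (hq : q ≠ 0) (j : Fin q) :
    (heckeMatrix q j).1 = (Um q j).map (Int.cast : ℤ → ℝ) := by
  rw [val_heckeMatrix hq]
  ext a b
  fin_cases a <;> fin_cases b <;> simp [Um]

theorem toAdd_heckeCharU {A : Type*} [AddCommGroup A] (hq : q.Prime) (hqN : q ∣ N)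
    (χ : Gamma0 N →* Multiplicative A) (γ : Gamma0 N) :
    toAdd (heckeCharU hq.ne_zero hqN χ γ) = opc (Gamma0 N) (Um q) (ofChar χ) γ :=
  toAdd_trans (heckeSysU hq.ne_zero hqN) (val_heckeMatrix' hq.ne_zero)
    (corr_U hq hqN (dvd_mul_left _ _)) χ γ

theorem toAdd_wChar {A : Type*} [AddCommGroup A] [NeZero q] [NeZero M] [NeZero N] {K r : ℕ}
    (B : LG.Bez q M) (hM : M = K * r) (hN : N = q * K) (χ : Gamma0 N →* Multiplicative A)
    (γ : Gamma0 N) : toAdd (B.wChar (Dvd.intro r hM.symm) hN χ γ) =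
      opW q K B.w (r * B.y) (ofChar χ) γ := by
  subst hN
  have hq : q ≠ 0 := NeZero.ne q
  have hB := B.det
  have hM' : (M : ℤ) = K * r := by exact_mod_cast hM
  have hb : (q : ℤ) * B.w - K * (r * B.y) = 1 := by
    rw [← hB, hM']
    ring
  obtain ⟨γ', hγ', e⟩ := exists_Wconj hb γ.2
  rw [opW_eq hq hb (addOn_ofChar χ) γ.2 hγ' e]
  -- the comparison element
  obtain ⟨δ, h00, h01, h10, h11⟩ : ∃ δ : SL(2, ℤ), δ 0 0 = q * B.w - K * B.y ∧
      δ 0 1 = (1 - r) * B.y ∧ δ 1 0 = q * K * B.w * (r - 1) ∧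
      δ 1 1 = q * B.w - K * r ^ 2 * B.y := by
    refine ⟨sl (q * B.w - K * B.y) ((1 - r) * B.y) (q * K * B.w * (r - 1))
      (q * B.w - K * r ^ 2 * B.y) ?_, rfl, rfl, rfl, rfl⟩
    linear_combination (q * B.w - K * (r * B.y) + 1) * hb
  have hδ : δ ∈ Gamma0 (q * K) := by
    rw [mem_G0, h10]
    push_cast
    exact ⟨B.w * (r - 1), by ring⟩
  have hW : (B.Wm).1 = ((δ : Mat) * Wm q K B.w (r * B.y)).map (Int.cast : ℤ → ℝ) := by
    obtain ⟨w00, w01, w10, w11⟩ := B.Wm_entries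
    have hb' : (q : ℝ) * B.w - K * (r * B.y) = 1 := by exact_mod_cast hb
    have hM'' : (M : ℝ) = K * r := by exact_mod_cast hM
    have e00 : (Wm q K B.w (r * B.y)) 0 0 = q := rfl
    have e01 : (Wm q K B.w (r * B.y)) 0 1 = r * B.y := rfl
    have e10 : (Wm q K B.w (r * B.y)) 1 0 = q * K := rfl
    have e11 : (Wm q K B.w (r * B.y)) 1 1 = q * B.w := rfl
    ext a b
    rw [Matrix.map_apply, Matrix.mul_apply, Fin.sum_univ_two]
    fin_cases a <;> fin_cases b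
    · change (B.Wm : Matrix (Fin 2) (Fin 2) ℝ) 0 0 = ((δ 0 0 * _ + δ 0 1 * _ : ℤ) : ℝ)
      rw [w00, h00, h01]
      simp only [Fin.zero_eta, Fin.isValue, e00, e10]
      push_cast
      linear_combination -(q : ℝ) * hb'
    · change (B.Wm : Matrix (Fin 2) (Fin 2) ℝ) 0 1 = ((δ 0 0 * _ + δ 0 1 * _ : ℤ) : ℝ)
      rw [w01, h00, h01]
      simp only [Fin.mk_one, Fin.isValue, e01, e11]
      push_cast
      linear_combination -(B.y : ℝ) * hb'
    · change (B.Wm : Matrix (Fin 2) (Fin 2) ℝ) 1 0 = ((δ 1 0 * _ + δ 1 1 * _ : ℤ) : ℝ)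
      rw [w10, h10, h11, hM'']
      simp only [Fin.zero_eta, Fin.isValue, e00, e10]
      push_cast
      linear_combination -(q * K * r : ℝ) * hb'
    · change (B.Wm : Matrix (Fin 2) (Fin 2) ℝ) 1 1 = ((δ 1 0 * _ + δ 1 1 * _ : ℤ) : ℝ)
      rw [w11, h10, h11]
      simp only [Fin.mk_one, Fin.isValue, e01, e11]
      push_cast
      linear_combination -(q * B.w : ℝ) * hb'
  have hconj : δ * γ' * δ⁻¹ ∈ Gamma0 (q * K) := mul_mem (mul_mem hδ hγ') (inv_mem hδ)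
  have e2 : B.Wm * mapGL ℝ (γ : SL(2, ℤ)) = mapGL ℝ (δ * γ' * δ⁻¹) * B.Wm := by
    refine gl_of_int hW hW ?_
    rw [mul_assoc, e, sl_coe_mul, sl_coe_mul, ← mul_assoc, ← mul_assoc, mul_assoc _ _ (δ : Mat),
      ← sl_coe_mul δ⁻¹ δ, inv_mul_cancel]
    change _ = (δ : Mat) * (γ' : Mat) * 1 * _
    rw [mul_one]
  rw [B.wChar_apply _ rfl χ (γ' := ⟨_, hconj⟩) e2]
  rw [← ofChar_coe χ ⟨_, hconj⟩]
  exact (addOn_ofChar χ).conj hγ' hδ

end Fermat.Agent.NF
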