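import Fermat.Agent.NF.New5
import Fermat.Agent.NF.Res

set_option autoImplicit false

/-!
# Newforms of level exactly divisible by `q²`: both traces, with the Atkin–Lehner matrix `W_{q²}`
-/

open UpperHalfPlane hiding I
open Matrix Matrix.SpecialLinearGroup CongruenceSubgroup ModularForm ModularFormClass
open Fermat.Agent.ES Fermat.Agent.ESCore Fermat.Agent.DS Fermat.Agent.RT.Ihara
open Multiplicative (toAdd ofAdd)
open scoped MatrixGroups

noncomputable section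

namespace Fermat.Agent.NF

variable {N M K q : ℕ}

theorem exists_sl_of {a b c d : ℤ} (h : a * d - b * c = 1) : ∃ g : SL(2, ℤ),
    (g : Mat) = !![a, b; c, d] := ⟨⟨!![a, b; c, d], by rw [Matrix.det_fin_two_of]; exact h⟩, rfl⟩

/-- the relation between `W_{q²}` and `W_q` -/
theorem W_R2 (hq : q ≠ 0) {w y : ℤ} (hb : (q ^ 2 : ℤ) * w - K * y = 1) {j j' k : ℤ}
    (hj : y * (1 + j) = j' + q * k) : ∃ γ ∈ Gamma0 (q ^ 2 * K),
      Wm (q ^ 2) K w y * !![1, 0; (q * K : ℤ) * j, 1] =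
        (γ : Mat) * (!![1, j'; 0, (q : ℤ)] * Wm q K (q * w) y) := by
  have hq0 : (q : ℤ) ≠ 0 := by exact_mod_cast hq
  set b : ℤ := y * (q * w - k * K) - y - j' * q ^ 2 * w - y * K * j * j' * q * w with hb'
  have hqb : q * b = -(q + y * K * j) * (y + j' * q ^ 2 * w) + y * (1 + j' * K) := by
    rw [hb']
    linear_combination y * hb + y * K * hj
  have hdet : (q ^ 2 * w * (q + y * K * j) - y * K) *
      (-(K * (1 + q * w * j)) * (y + j' * q ^ 2 * w) + w * q * (1 + j' * K)) -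
      b * (q ^ 2 * K * (w * (q + q ^ 2 * w * j - 1))) = 1 := by
    apply mul_left_cancel₀ hq0
    linear_combination (-(q ^ 2 * K * (w * (q + q ^ 2 * w * j - 1))) : ℤ) * hqb +
      q * (q ^ 2 * w - K * y + 1) * hb
  obtain ⟨γ, hγ⟩ := exists_sl_of hdet
  refine ⟨γ, ?_, ?_⟩
  · rw [mem_G0]
    have : γ 1 0 = q ^ 2 * K * (w * (q + q ^ 2 * w * j - 1)) := by rw [hγ]; rfl
    rw [this]
    push_cast
    exact dvd_mul_right _ _
  · rw [hγ, Wm, Wm]
    ext a c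
    fin_cases a <;> fin_cases c <;> simp [Matrix.mul_apply, Fin.sum_univ_two]
    · linear_combination (-(q : ℤ) * K) * hqb - (q ^ 2 + y * q * K * j) * hb
    · linear_combination (-(q : ℤ) ^ 2 * w) * hqb - y * hb
    · linear_combination (-(q : ℤ) ^ 2 * K * (1 + q * w * j)) * hb
    · linear_combination (-(q : ℤ) ^ 2 * w) * hb

theorem corr_R2' (hq : q.Prime) (hK : K ≠ 0) :
    Corr (Gamma0 (q ^ 2 * K)) (Gamma0 (q * K)) (R2 q (q * K)) := by
  have e : q ^ 2 * K = q * (q * K) := by ring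
  rw [e]
  exact corr_R2 hq (dvd_mul_right _ _) (mul_ne_zero hq.ne_zero hK)

theorem corr_U' (hq : q.Prime) :
    Corr (Gamma0 (q ^ 2 * K)) (Gamma0 (q * K)) (Um q) :=
  corr_U hq (dvd_mul_right _ _) (by rw [sq, mul_assoc])

/-- the trace of the transform under `W_{q²}` is the transform under `W_q` of the second trace -/
theorem opc_R2_W {A : Type*} [AddCommGroup A] (hq : q.Prime) (hK : K ≠ 0) {w y : ℤ}
    (hb : (q ^ 2 : ℤ) * w - K * y = 1) {c : SL(2, ℤ) → A} (hc : AddOn (Gamma0 (q ^ 2 * K)) c)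
    {g : SL(2, ℤ)} (hg : g ∈ Gamma0 (q * K)) :
    opc (Gamma0 (q ^ 2 * K)) (R2 q (q * K)) (opW (q ^ 2) K w y c) g =
      opW q K (q * w) y (opc (Gamma0 (q ^ 2 * K)) (Um q) c) g := by
  have hq0 : (q : ℤ) ≠ 0 := by exact_mod_cast hq.ne_zero
  have hb1 : (((q ^ 2 : ℕ) : ℤ)) * w - K * y = 1 := by push_cast; exact hb
  have hb2 : (q : ℤ) * (q * w) - K * y = 1 := by linear_combination hb
  have HW := corr_W (M := K) (pow_ne_zero 2 hq.ne_zero) hb1
  have HW' := corr_W (M := K) hq.ne_zero hb2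
  have HR := corr_R2' hq hK
  have HU := corr_U' (K := K) hq
  have hs := isPrim_prim hc
  choose f k hf using fun j : Fin q => exists_fin_mod hq.pos (y * (1 + ((j : ℕ) : ℤ)))
  have hyq : IsCoprime (q : ℤ) y := ⟨q * w, -K, by linear_combination hb⟩
  have hinj : Function.Injective f := by
    intro i j hij
    have h1 := hf i
    have h2 := hf j
    rw [hij] at h1
    have h3 : (q : ℤ) ∣ y * (((i : ℕ) : ℤ) - ((j : ℕ) : ℤ)) :=
      ⟨k i - k j, by linear_combination h1 - h2⟩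
    have h4 := hyq.dvd_of_dvd_mul_left h3
    have h5 : ((i : ℕ) : ZMod q) = ((j : ℕ) : ZMod q) := by
      have := (ZMod.intCast_zmod_eq_zero_iff_dvd _ _).mpr h4
      push_cast at this
      exact sub_eq_zero.mp this
    rw [ZMod.natCast_eq_natCast_iff', Nat.mod_eq_of_lt i.2, Nat.mod_eq_of_lt j.2] at h5
    exact Fin.ext h5
  set F := Equiv.ofBijective f (Finite.injective_iff_bijective.mp hinj) with hF
  have key := sum_prim_comm (D := fun j => Wm (q ^ 2) K w y * R2 q (q * K) j)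
    (E := fun j => Um q j * Wm q K (q * w) y)
    (fun x => by rw [Matrix.det_mul]; exact mul_ne_zero (HW.det ()) (HR.det x))
    (fun x => by rw [Matrix.det_mul]; exact mul_ne_zero (HU.det x) (HW'.det ()))
    hs F (fun j => by
      obtain ⟨γ, hγ, e⟩ := W_R2 (K := K) hq.ne_zero hb (hf j)
      refine ⟨1, 1, one_pos, one_pos, γ, hγ, ?_⟩
      rw [one_smul, one_smul]
      have e1 : R2 q (q * K) j = !![1, 0; (q * K : ℤ) * ((j : ℕ) : ℤ), 1] := by
        rw [R2]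
        push_cast
        rfl
      rw [e1, e]
      rfl) (m := (g : Mat)) (by rw [g.det_coe]; norm_num)
  rw [opW, opW, HW.opc_comp HR hs hg, HU.opc_comp HW' hs hg]
  simp only [Finset.univ_unique, Finset.sum_const, Finset.card_singleton, one_smul]
  simp only [mul_assoc] at key ⊢
  exact key

variable [NeZero N] {A : Type*} [CommRing A] [IsDomain A] [CharZero A]
  {g : CuspForm (Gamma0 N) 2} {φ : integralClosure ℤ ℂ →+* A} {χ : Gamma0 N →* Multiplicative A}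

/-- `w_{q²} χ` as a function -/
theorem NewChar.trace_W (h : NewChar g φ χ) (hg : g.IsNewform) (hq : q.Prime)
    (hN : N = q ^ 2 * K) {w y : ℤ} (hb : (q ^ 2 : ℤ) * w - K * y = 1) {γ : SL(2, ℤ)}
    (hγ : γ ∈ Gamma0 (q * K)) :
    opc (Gamma0 (q ^ 2 * K)) (R2 q (q * K)) (opW (q ^ 2) K w y (ofChar χ)) γ = 0 := by
  subst hN
  have hK0 : K ≠ 0 := fun h => NeZero.ne (q ^ 2 * K) (by rw [h, mul_zero])
  have hb2 : (q : ℤ) * (q * w) - K * y = 1 := by linear_combination hb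
  rw [opc_R2_W hq hK0 hb (addOn_ofChar χ) hγ]
  have HU := corr_U' (K := K) hq
  have HW' := corr_W (M := K) hq.ne_zero hb2
  have h0 : ∀ δ ∈ Gamma0 (q * K), opc (Gamma0 (q ^ 2 * K)) (Um q) (ofChar χ) δ = 0 := by
    intro δ hδ
    have h2 := h.frac.opU_zero_field hg hq (by ring : q ^ 2 * K = q * (q * K))
      (dvd_mul_right _ _) hδ
    rw [opc_frac] at h2
    exact IsFractionRing.injective A (FractionRing A) (h2.trans (map_zero _).symm)
  obtain ⟨σ, γ', hγ', e⟩ := HW'.exists_perm hγ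
  rw [opW, HW'.opc_eq (HU.addOn (addOn_ofChar χ)) hγ (γ := γ') (σ := σ) hγ' e]
  exact Finset.sum_eq_zero fun x _ => h0 _ (hγ' x)

theorem inj_of_lcm {ι : Type*} (hqM : q.Coprime M) {r : ι → SL(2, ℤ)}
    (hr : ∀ x, r x ∈ Gamma0 (q * M))
    (hinj : ∀ x y, r x * (r y)⁻¹ ∈ Gamma0 (q ^ 2 * M) → x = y) (x y : ι)
    (h : r x * (r y)⁻¹ ∈ Gamma0 (q ^ 2 * K)) : x = y := by
  apply hinj
  have h2 : r x * (r y)⁻¹ ∈ Gamma0 (q * M) := mul_mem (hr x) (inv_mem (hr y))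
  rw [mem_G0] at h h2 ⊢
  have h3 : (q ^ 2 : ℤ) ∣ (r x * (r y)⁻¹) 1 0 :=
    dvd_trans (by push_cast; exact dvd_mul_right _ _) h
  have h4 : (M : ℤ) ∣ (r x * (r y)⁻¹) 1 0 := dvd_trans (by push_cast; exact dvd_mul_left _ _) h2
  have hcop : IsCoprime (q ^ 2 : ℤ) (M : ℤ) :=
    (Nat.isCoprime_iff_coprime.mpr hqM).pow_left
  push_cast
  exact hcop.mul_dvd h3 h4

/-- **(T1)**: the trace to level `qM` of the restriction of the character to level `q² M`. -/
theorem NewChar.T1 (h : NewChar g φ χ) (hg : g.IsNewform) (hq : q.Prime) (hN : N = q ^ 2 * K)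
    (hKM : K ∣ M) (hqM : q.Coprime M) {N' : ℕ} (hN' : N' = q ^ 2 * M) (hNN : N ∣ N')
    {B : Type*} [CommGroup B] (f : Multiplicative A →* B)
    {ι : Type*} [Fintype ι] (hι : Fintype.card ι = q) (r : ι → SL(2, ℤ))
    (hr : ∀ x, r x ∈ Gamma0 (q * M))
    (hinj : ∀ x y, r x * (r y)⁻¹ ∈ Gamma0 N' → x = y) {γ : SL(2, ℤ)}
    (hγ : γ ∈ Gamma0 (q * M)) (γ' : ι → Gamma0 N') (s : ι → ι)
    (e : ∀ x, r x * γ = (γ' x : SL(2, ℤ)) * r (s x)) :
    ∏ x, resC hNN (f.comp χ) (γ' x) = 1 := by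
  subst hN'
  have hle : Gamma0 (q * M) ≤ Gamma0 (q * K) := Gamma0_le (mul_dvd_mul_left _ hKM)
  have h1 := h.trace_eq_one hg hq (M := q * K) (by rw [hN]; ring) (dvd_mul_right _ _) hι r
    (fun x => hle (hr x)) (fun x y hxy => inj_of_lcm hqM hr hinj x y (by rwa [hN] at hxy))
    (hle hγ) (fun x => inc hNN (γ' x)) s e
  have h2 : ∀ x, resC hNN (f.comp χ) (γ' x) = f (χ (inc hNN (γ' x))) := fun _ => rfl
  rw [Finset.prod_congr rfl fun x _ => h2 x, ← map_prod, h1, map_one]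

/-- **(T2)**: the same for the transform under the Atkin–Lehner matrix `W_{q²}`. -/
theorem NewChar.T2 [NeZero (q ^ 2)] [NeZero M] (h : NewChar g φ χ) (hg : g.IsNewform)
    (hq : q.Prime) (hN : N = q ^ 2 * K)
    (hKM : K ∣ M) (hqM : q.Coprime M) {N' : ℕ} [NeZero N'] (hN' : N' = q ^ 2 * M)
    (hNN : N ∣ N') (Bz : LG.Bez (q ^ 2) M)
    {B : Type*} [CommGroup B] (f : Multiplicative A →* B)
    {ι : Type*} [Fintype ι] (hι : Fintype.card ι = q) (r : ι → SL(2, ℤ))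
    (hr : ∀ x, r x ∈ Gamma0 (q * M))
    (hinj : ∀ x y, r x * (r y)⁻¹ ∈ Gamma0 N' → x = y) {γ : SL(2, ℤ)}
    (hγ : γ ∈ Gamma0 (q * M)) (γ' : ι → Gamma0 N') (s : ι → ι)
    (e : ∀ x, r x * γ = (γ' x : SL(2, ℤ)) * r (s x)) :
    ∏ x, Bz.wChar dvd_rfl hN' (resC hNN (f.comp χ)) (γ' x) = 1 := by
  have hle : Gamma0 (q * M) ≤ Gamma0 (q * K) := Gamma0_le (mul_dvd_mul_left _ hKM)
  have hK0 : K ≠ 0 := fun h => NeZero.ne N (by rw [hN, h, mul_zero])
  have h1 : Bz.wChar dvd_rfl hN' (resC hNN (f.comp χ)) =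
      resC hNN (f.comp (Bz.wChar hKM hN χ)) := by
    rw [wChar_resC hNN Bz dvd_rfl hKM hN' hN, LG.Bez.wChar, LG.Bez.wChar, CosetSys.trans_comp]
  rw [h1]
  set ω := Bz.wChar hKM hN χ with hω
  obtain ⟨t, ht⟩ := id hKM
  have hM' : (M : ℤ) = K * t := by exact_mod_cast ht
  have hb : (q ^ 2 : ℤ) * Bz.w - K * (t * Bz.y) = 1 := by
    have hB := Bz.det
    push_cast at hB
    rw [← hB, hM']
    ring
  have h2 : ∀ δ ∈ Gamma0 N, ofChar ω δ = opW (q ^ 2) K Bz.w (t * Bz.y) (ofChar χ) δ := by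
    intro δ hδ
    rw [ofChar_mem ω hδ]
    exact toAdd_wChar Bz ht hN χ ⟨δ, hδ⟩
  subst hN hN'
  have h3 := h.trace_W hg hq rfl hb (hle hγ)
  have h4 : opc (Gamma0 (q ^ 2 * K)) (R2 q (q * K)) (ofChar ω) γ = 0 := by
    rw [← h3]
    exact (corr_R2' hq hK0).opc_congr (addOn_ofChar ω) h2 (hle hγ)
  have e2 : q ^ 2 * K = q * (q * K) := by ring
  have h5 : Corr (Gamma0 (q ^ 2 * K)) (Gamma0 (q * K)) (fun x => (r x : Mat)) ∧
      opc (Gamma0 (q ^ 2 * K)) (fun x => (r x : Mat)) (ofChar ω) γ =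
        opc (Gamma0 (q ^ 2 * K)) (R2 q (q * K)) (ofChar ω) γ := by
    have h6 := addOn_ofChar ω
    have h7 := inj_of_lcm (K := K) hqM hr hinj
    generalize ofChar ω = c at h6
    rw [e2] at h6 h7 ⊢
    exact opc_reps hq (dvd_mul_right _ _) (mul_ne_zero hq.ne_zero hK0) hι r
      (fun x => hle (hr x)) h7 h6 (hle hγ)
  obtain ⟨H, h5⟩ := h5
  have hmat : ∀ x, (r x : Mat) * (γ : Mat) =
      (((inc hNN (γ' x) : Gamma0 (q ^ 2 * K)) : SL(2, ℤ)) : Mat) * (r (s x) : Mat) := by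
    intro x
    rw [coe_inc, ← sl_coe_mul, ← sl_coe_mul, e x]
  rw [h4, H.opc_eq (addOn_ofChar ω) (hle hγ) (γ := fun x => ((inc hNN (γ' x) : Gamma0 (q ^ 2 * K)) :
    SL(2, ℤ))) (σ := s) (fun x => (inc hNN (γ' x)).2) hmat] at h5
  simp only [ofChar_coe] at h5
  rw [← toAdd_prod] at h5
  have h6 : ∏ x, ω (inc hNN (γ' x)) = 1 := h5
  have h7 : ∀ x, resC hNN (f.comp ω) (γ' x) = f (ω (inc hNN (γ' x))) := fun _ => rfl
  rw [Finset.prod_congr rfl fun x _ => h7 x, ← map_prod, h6, map_one]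

end Fermat.Agent.NF
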