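import Fermat.Agent.NF.Ops

set_option autoImplicit false

/-!
# Commutation of `T_l` with `w_q`, `U_q` and the traces
-/

open Matrix CongruenceSubgroup
open scoped MatrixGroups

namespace Fermat.Agent.NF

open Fermat.Agent.RT.Ihara

variable {A : Type*} [AddCommGroup A] {N M q l : ℕ} {G₁ G₂ : Subgroup SL(2, ℤ)}

/-- commutation of two correspondences -/
theorem comm_general {ι κ : Type*} [Fintype ι] [Fintype κ] {D : ι → Mat} {X : κ → Mat}
    (HD1 : Corr G₁ G₁ D) (HD2 : Corr G₂ G₂ D) (HX : Corr G₁ G₂ X)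
    (hex : ∀ x y, ∃ y' x', ∃ γ ∈ G₁, D x * X y = (γ : Mat) * (X y' * D x'))
    (hinj : ∀ x y x' y', ∀ γ ∈ G₁, D x * X y = (γ : Mat) * (D x' * X y') → x = x' ∧ y = y')
    {c : SL(2, ℤ) → A} (hc : AddOn G₁ c) {g : SL(2, ℤ)} (hg : g ∈ G₂) :
    opc G₂ D (opc G₁ X c) g = opc G₁ X (opc G₁ D c) g := by
  classical
  choose f₁ f₂ γ hγ e using hex
  have hf : Function.Injective (fun p : ι × κ => (f₁ p.1 p.2, f₂ p.1 p.2)) := by
    rintro ⟨x, y⟩ ⟨x', y'⟩ h
    simp only [Prod.mk.injEq] at h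
    have h1 := e x y
    have h2 := e x' y'
    rw [h.1, h.2] at h1
    obtain ⟨rfl, rfl⟩ := hinj x y x' y' (γ x y * (γ x' y')⁻¹)
      (mul_mem (hγ _ _) (inv_mem (hγ _ _))) (by
        rw [h2, sl_coe_mul, ← mul_assoc, mul_assoc (γ x y : Mat), ← sl_coe_mul (γ x' y')⁻¹,
          inv_mul_cancel, h1]
        congr 1
        exact (mul_one _).symm)
    rfl
  have hcard : Fintype.card (ι × κ) = Fintype.card (κ × ι) := by
    rw [Fintype.card_prod, Fintype.card_prod, mul_comm]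
  let F : ι × κ ≃ κ × ι := Equiv.ofBijective _
    ((Fintype.bijective_iff_injective_and_card _).mpr ⟨hf, hcard⟩)
  have hs := isPrim_prim hc
  rw [HX.opc_comp HD2 hs hg, HD1.opc_comp HX hs hg]
  have h1 : ∀ m : Mat, ∑ y, ∑ x, prim G₁ c (X x * (D y * m)) =
      ∑ p : κ × ι, prim G₁ c ((X p.1 * D p.2) * m) := by
    intro m
    rw [Finset.sum_comm, Fintype.sum_prod_type]
    exact Finset.sum_congr rfl fun x _ => Finset.sum_congr rfl fun y _ => by rw [mul_assoc]
  have h2 : ∀ m : Mat, ∑ y, ∑ x, prim G₁ c (D x * (X y * m)) =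
      ∑ p : ι × κ, prim G₁ c ((D p.1 * X p.2) * m) := by
    intro m
    rw [Finset.sum_comm, Fintype.sum_prod_type]
    exact Finset.sum_congr rfl fun x _ => Finset.sum_congr rfl fun y _ => by rw [mul_assoc]
  have h3 : ∑ y, ∑ x, prim G₁ c (X x * D y) = ∑ p : κ × ι, prim G₁ c (X p.1 * D p.2) := by
    rw [Finset.sum_comm, Fintype.sum_prod_type]
  have h4 : ∑ y, ∑ x, prim G₁ c (D x * X y) = ∑ p : ι × κ, prim G₁ c (D p.1 * X p.2) := by
    rw [Finset.sum_comm, Fintype.sum_prod_type]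
  rw [h1, h2, h3, h4]
  symm
  refine sum_prim_comm (D := fun p : ι × κ => D p.1 * X p.2) (E := fun p : κ × ι => X p.1 * D p.2)
    (fun p => ?_) (fun p => ?_) hs F (fun p => ?_) (m := (g : Mat)) (by rw [g.det_coe]; norm_num)
  · rw [Matrix.det_mul]
    exact mul_ne_zero (HD1.det _) (HX.det _)
  · rw [Matrix.det_mul]
    exact mul_ne_zero (HX.det _) (HD1.det _)
  · refine ⟨1, 1, one_pos, one_pos, γ p.1 p.2, hγ _ _, ?_⟩
    rw [one_smul, one_smul]
    exact (e p.1 p.2).symm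

theorem Mx_tri (x : Option (Fin l)) : ∃ a b d : ℤ, Mx l x = !![a, b; 0, d] ∧ a * d = l ∧
    (d = 1 ∨ d = l) := by
  rcases x with _ | j
  · exact ⟨l, 0, 1, rfl, by ring, Or.inl rfl⟩
  · exact ⟨1, j, l, rfl, by ring, Or.inr rfl⟩

/-- `T_l w_q = w_q T_l` -/
theorem comm_W (hl : l.Prime) (hlN : ¬ l ∣ q * M) (hq : q ≠ 0) {w y : ℤ}
    (hb : q * w - M * y = 1) {c : SL(2, ℤ) → A} (hc : AddOn (Gamma0 (q * M)) c)
    {g : SL(2, ℤ)} (hg : g ∈ Gamma0 (q * M)) :
    opc (Gamma0 (q * M)) (Mx l) (opc (Gamma0 (q * M)) (fun _ : Unit => Wm q M w y) c) g =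
      opc (Gamma0 (q * M)) (fun _ : Unit => Wm q M w y) (opc (Gamma0 (q * M)) (Mx l) c) g := by
  have hWdet : (Wm q M w y).det ≠ 0 := by
    rw [Wm_det hb]
    exact_mod_cast hq
  refine comm_general (corr_T hl hlN) (corr_T hl hlN) (corr_W hq hb) (fun x _ => ?_)
    (fun x _ x' _ γ hγ e => ?_) hc hg
  · obtain ⟨a, b, d, hx, had, hd⟩ := Mx_tri x
    set E : Mat := !![w * q * a + w * q * M * b - y * M * d, w * a * y + b * q * w ^ 2 - y * d * w;
      q * M * (d - a - M * b), -(M * a * y) - M * b * q * w + d * q * w] with hE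
    have e1 : Mx l x * Wm q M w y = Wm q M w y * E := by
      rw [hx, hE, Wm]
      ext i j
      fin_cases i <;> fin_cases j <;> simp [Matrix.mul_apply, Fin.sum_univ_two]
      · linear_combination (-(a * q + b * (q * M) : ℤ)) * hb
      · linear_combination (-(a * y + b * (q * w) : ℤ)) * hb
      · linear_combination (-(d * (q * M) : ℤ)) * hb
      · linear_combination (-(d * (q * w) : ℤ)) * hb
    have hEdet : E.det = l := by
      have h1 := congrArg Matrix.det e1
      rw [Matrix.det_mul, Matrix.det_mul, Mx_det, mul_comm] at h1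
      exact (mul_left_cancel₀ hWdet h1).symm
    obtain ⟨x', h, e2⟩ := exists_herm hl E hEdet
    have hh : h ∈ Gamma0 (q * M) := by
      refine mem_of_eq_mul e2 ?_ (Mx_10' x') (by rw [Mx_det]; exact coprime_of_prime hl hlN)
      rw [hE]
      push_cast
      exact dvd_mul_right _ _
    obtain ⟨h', hh', e3⟩ := exists_Wconj hb hh
    exact ⟨(), x', h', hh', by rw [e1, e2, ← mul_assoc, e3, mul_assoc]⟩
  · rw [← mul_assoc] at e
    exact ⟨herm_unique hl (mat_cancel_right hWdet e), rfl⟩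

/-- `T_l` commutes with the trace -/
theorem comm_R {κ : Type*} [Fintype κ] {R : κ → Mat} (hl : l.Prime) (hlN : ¬ l ∣ N) (hMN : M ∣ N)
    (HR : Corr (Gamma0 N) (Gamma0 M) R) (hR : ∀ x, ∃ r ∈ Gamma0 M, R x = (r : Mat))
    {c : SL(2, ℤ) → A} (hc : AddOn (Gamma0 N) c) {g : SL(2, ℤ)} (hg : g ∈ Gamma0 M) :
    opc (Gamma0 M) (Mx l) (opc (Gamma0 N) R c) g =
      opc (Gamma0 N) R (opc (Gamma0 N) (Mx l) c) g := by
  have hlM : ¬ l ∣ M := fun h => hlN (h.trans hMN)
  choose r hrM hr using hR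
  refine comm_general (corr_T hl hlN) (corr_T hl hlM) HR (fun x y => ?_)
    (fun x y x' y' γ hγ e => ?_) hc hg
  · obtain ⟨x', h, e⟩ := exists_herm hl (Mx l x * R y)
      (by rw [Matrix.det_mul, Mx_det, hr, (r y).det_coe, mul_one])
    have hh : h ∈ Gamma0 M := by
      refine mem_of_eq_mul e ?_ (Mx_10' x') (by rw [Mx_det]; exact coprime_of_prime hl hlM)
      have e10 : (Mx l x * R y) 1 0 = Mx l x 1 0 * r y 0 0 + Mx l x 1 1 * r y 1 0 := by
        rw [hr]
        simp [Matrix.mul_apply, Fin.sum_univ_two]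
      rw [e10]
      exact dvd_add ((Mx_10' x).mul_right _) ((mem_G0.mp (hrM y)).mul_left _)
    obtain ⟨y', g', hg', e'⟩ := HR.act y ((r y)⁻¹ * h) (mul_mem (inv_mem (hrM y)) hh)
    rw [hr y, ← sl_coe_mul, mul_inv_cancel_left] at e'
    exact ⟨y', x', g', hg', by rw [e, e', mul_assoc]⟩
  · obtain ⟨a', b', d', hx', had', hd'⟩ := Mx_tri x'
    obtain ⟨a, b, d, hx, had, hd⟩ := Mx_tri x
    set δ : SL(2, ℤ) := r y' * (r y)⁻¹ with hδ
    have e1 : Mx l x = (γ : Mat) * (Mx l x' * (δ : Mat)) := by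
      have hdy : ((r y : SL(2, ℤ)) : Mat).det ≠ 0 := by rw [(r y).det_coe]; norm_num
      refine mat_cancel_right hdy ?_
      rw [← hr y, e, hr y', hδ, hr y]
      simp only [mul_assoc]
      rw [← sl_coe_mul]
      congr 3
      rw [inv_mul_cancel_right]
    have e2 : ((γ⁻¹ : SL(2, ℤ)) : Mat) * Mx l x = Mx l x' * (δ : Mat) := by
      rw [e1, ← mul_assoc, ← sl_coe_mul, inv_mul_cancel]
      exact one_mul _
    have e3 := congrFun (congrFun e2 1) 0
    rw [hx, hx'] at e3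
    simp only [Matrix.mul_apply, Fin.sum_univ_two] at e3
    have e4 : (γ⁻¹ : SL(2, ℤ)) 1 0 * a = d' * δ 1 0 := by simpa using e3
    have hδN : δ ∈ Gamma0 N := by
      rw [mem_G0]
      have h5 : (N : ℤ) ∣ d' * δ 1 0 := by
        rw [← e4]
        exact (mem_G0.mp (inv_mem hγ)).mul_right _
      rcases hd' with rfl | rfl
      · simpa using h5
      · exact (coprime_of_prime hl hlN).dvd_of_dvd_mul_left h5
    have h6 : y' = y := by
      refine HR.inj y' y δ hδN ?_
      rw [hr, hr, ← sl_coe_mul, hδ, inv_mul_cancel_right]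
    subst h6
    rw [hδ, mul_inv_cancel] at e1
    refine ⟨herm_unique hl (h := γ) ?_, rfl⟩
    rw [e1]
    congr 1
    exact mul_one _

/-- `T_l U_q = U_q T_l`, from level `N` to level `M` -/
theorem comm_U (hl : l.Prime) (hlN : ¬ l ∣ N) (hq : q.Prime) (hqM : q ∣ M) (hMN : M ∣ N)
    (hN : N ∣ q * M) {c : SL(2, ℤ) → A} (hc : AddOn (Gamma0 N) c) {g : SL(2, ℤ)}
    (hg : g ∈ Gamma0 M) :
    opc (Gamma0 M) (Mx l) (opc (Gamma0 N) (Um q) c) g =
      opc (Gamma0 N) (Um q) (opc (Gamma0 N) (Mx l) c) g := by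
  have hlM : ¬ l ∣ M := fun h => hlN (h.trans hMN)
  have hlq : ¬ l ∣ q := fun h => hlM (h.trans hqM)
  have hl0 : (l : ℤ) ≠ 0 := by exact_mod_cast hl.ne_zero
  have hq0 : (q : ℤ) ≠ 0 := by exact_mod_cast hq.ne_zero
  refine comm_general (corr_T hl hlN) (corr_T hl hlM) (corr_U hq hqM hN) (fun x j => ?_)
    (fun x j x' j' γ hγ e => ?_) hc hg
  · have hup : ∀ e : ℤ, up e ∈ Gamma0 N := fun e => Gamma1_in_Gamma0 N (up_mem N e)
    rcases x with _ | i
    · obtain ⟨j', k, hk⟩ := exists_fin_mod hq.pos ((l : ℤ) * (j : ℕ))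
      refine ⟨j', none, up k, hup k, ?_⟩
      ext a b
      fin_cases a <;> fin_cases b <;>
        simp [Mx, Um, up, sl, Matrix.mul_apply, Fin.sum_univ_two]
      linear_combination hk
    · -- `n = j + i q`
      obtain ⟨i', n', hn⟩ := exists_fin_mod hl.pos (((j : ℕ) : ℤ) + (i : ℕ) * q)
      obtain ⟨j', k, hk⟩ := exists_fin_mod hq.pos n'
      refine ⟨j', some i', up k, hup k, ?_⟩
      ext a b
      fin_cases a <;> fin_cases b <;>
        simp [Mx, Um, up, sl, Matrix.mul_apply, Fin.sum_univ_two]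
      · linear_combination hn + l * hk
      · ring
  · -- uniqueness
    have e00 := congrFun (congrFun e 0) 0
    have e01 := congrFun (congrFun e 0) 1
    have e10 := congrFun (congrFun e 1) 0
    have e11 := congrFun (congrFun e 1) 1
    have hdet := det2 γ
    have huniq : ∀ {i j : Fin q}, (q : ℤ) ∣ ((i : ℕ) : ℤ) - ((j : ℕ) : ℤ) → i = j := by
      intro i j h
      have h5 : ((i : ℕ) : ZMod q) = ((j : ℕ) : ZMod q) := by
        have := (ZMod.intCast_zmod_eq_zero_iff_dvd _ _).mpr h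
        push_cast at this
        exact sub_eq_zero.mp this
      rw [ZMod.natCast_eq_natCast_iff', Nat.mod_eq_of_lt i.2, Nat.mod_eq_of_lt j.2] at h5
      exact Fin.ext h5
    have huniql : ∀ {i j : Fin l}, (l : ℤ) ∣ ((i : ℕ) : ℤ) - ((j : ℕ) : ℤ) → i = j := by
      intro i j h
      have h5 : ((i : ℕ) : ZMod l) = ((j : ℕ) : ZMod l) := by
        have := (ZMod.intCast_zmod_eq_zero_iff_dvd _ _).mpr h
        push_cast at this
        exact sub_eq_zero.mp this
      rw [ZMod.natCast_eq_natCast_iff', Nat.mod_eq_of_lt i.2, Nat.mod_eq_of_lt j.2] at h5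
      exact Fin.ext h5
    have hl1 : (1 : ℤ) < l := by exact_mod_cast hl.one_lt
    rcases x with _ | i <;> rcases x' with _ | i' <;>
      simp [Mx, Um, Matrix.mul_apply, Fin.sum_univ_two] at e00 e01 e10 e11
    · -- none, none
      have h10 : γ 1 0 = 0 := e10.resolve_right hl.ne_zero
      have h00 : γ 0 0 = 1 := by
        have : (l : ℤ) * γ 0 0 = l * 1 := by linarith
        exact mul_left_cancel₀ hl0 this
      have h11 : γ 1 1 = 1 := by rw [h00, h10] at hdet; linarith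
      rw [h00] at e01
      refine ⟨rfl, huniq ?_⟩
      have h7 : (q : ℤ) ∣ l * (((j : ℕ) : ℤ) - ((j' : ℕ) : ℤ)) := ⟨γ 0 1, by linear_combination e01⟩
      refine IsCoprime.dvd_of_dvd_mul_left ?_ h7
      exact Nat.isCoprime_iff_coprime.mpr (((Nat.coprime_primes hq hl).mpr fun h =>
        hlq (h ▸ dvd_rfl)))
    · -- none, some: `γ 1 0 = 0` and `l = γ 0 0`
      exfalso
      rw [← e00, ← e10] at hdet
      have h5 : ((l : ℤ)) ∣ 1 := ⟨γ 1 1, by linarith⟩
      have := Int.le_of_dvd one_pos h5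
      omega
    · -- some, none
      exfalso
      have h5 : ((l : ℤ)) ∣ 1 := ⟨γ 0 0, by linarith⟩
      have := Int.le_of_dvd one_pos h5
      omega
    · rw [← e00, ← e10] at hdet
      have h11 : γ 1 1 = 1 := by linarith
      rw [← e00] at e01
      have h8 : j = j' := by
        refine huniq ⟨(i' : ℕ) - (i : ℕ) + γ 0 1 * l, ?_⟩
        linear_combination e01
      subst h8
      refine ⟨congrArg some (huniql ?_), rfl⟩
      have h9 : (q : ℤ) * (((i : ℕ) : ℤ) - ((i' : ℕ) : ℤ)) = q * (l * γ 0 1) := by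
        linear_combination e01
      exact ⟨γ 0 1, mul_left_cancel₀ hq0 h9⟩

end Fermat.Agent.NF
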