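import Fermat.Agent.NF.Rel
import Fermat.Agent.ESCore.EigenChar
import Fermat.Agent.ES.EichlerShimura
import Fermat.Agent.RT.AL5

set_option autoImplicit false

/-!
# Eigenvectors of the Hecke operators in `Hom(Γ₀(N), K)` come from eigenforms
-/

open UpperHalfPlane hiding I
open Matrix Matrix.SpecialLinearGroup CongruenceSubgroup ModularForm ModularFormClass
open Fermat.Agent.ES Fermat.Agent.ESCore Fermat.Agent.DS Fermat.Agent.RT.Ihara
open scoped MatrixGroups

noncomputable section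

namespace Fermat.Agent.NF

variable {N l : ℕ}

theorem val_hdelta (hl : l ≠ 0) (x : Option (Fin l)) :
    (hdelta l x).1 = (Mx l x).map (Int.cast : ℤ → ℝ) := by
  rcases x with _ | j
  · change (heckeDiagMatrix l).1 = _
    rw [val_heckeDiagMatrix hl]
    ext a b
    fin_cases a <;> fin_cases b <;> simp [Mx]
  · change (heckeMatrix l j).1 = _
    rw [val_heckeMatrix hl]
    ext a b
    fin_cases a <;> fin_cases b <;> simp [Mx]

theorem gl_of_int {δ δ' : GL (Fin 2) ℝ} {D D' : Mat} (h : δ.1 = D.map (Int.cast : ℤ → ℝ))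
    (h' : δ'.1 = D'.map (Int.cast : ℤ → ℝ)) {g g' : SL(2, ℤ)}
    (e : D * (g : Mat) = (g' : Mat) * D') : δ * mapGL ℝ g = mapGL ℝ g' * δ' := by
  apply Units.ext
  rw [Units.val_mul, Units.val_mul, h, h']
  have e1 : ∀ g : SL(2, ℤ), (mapGL ℝ g : GL (Fin 2) ℝ).1 = (g : Mat).map (Int.cast : ℤ → ℝ) := by
    intro g
    rfl
  rw [e1, e1]
  have e2 := congrArg (fun m : Mat => m.map (Int.castRingHom ℝ)) e
  simp only [Matrix.map_mul] at e2
  exact e2

/-- the conjugate representatives -/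
def hJ (l : ℕ) : Option (Fin l) → GL (Fin 2) ℝ
  | some j => if h : l = 0 then 1 else upperTriangularGL 1 (-((j : ℕ) : ℝ)) l
      (by rw [one_mul]; exact_mod_cast h)
  | none => heckeDiagMatrix l

theorem val_hJ (hl : l ≠ 0) (x : Option (Fin l)) :
    (hJ l x).1 = (ModularCurve.Period.jConjMat (Mx l x)).map (Int.cast : ℤ → ℝ) := by
  rcases x with _ | j
  · change (heckeDiagMatrix l).1 = _
    rw [val_heckeDiagMatrix hl]
    ext a b
    fin_cases a <;> fin_cases b <;> simp [Mx, ModularCurve.Period.jConjMat]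
  · rw [hJ, dif_neg hl, val_upperTriangularGL]
    ext a b
    fin_cases a <;> fin_cases b <;> simp [Mx, ModularCurve.Period.jConjMat]

theorem hJ_det_pos (hl : l ≠ 0) (x : Option (Fin l)) : 0 < ((hJ l x).det : ℝ) := by
  rw [Matrix.GeneralLinearGroup.val_det_apply, val_hJ hl]
  have h1 : ((ModularCurve.Period.jConjMat (Mx l x)).map (Int.cast : ℤ → ℝ)).det = (l : ℝ) := by
    have h2 := (Int.castRingHom ℝ).map_det (ModularCurve.Period.jConjMat (Mx l x))
    rw [ModularCurve.Period.jConjMat_det, Mx_det] at h2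
    rw [RingHom.mapMatrix_apply] at h2
    exact h2.symm.trans (by simp)
  rw [h1]
  exact_mod_cast Nat.pos_of_ne_zero hl

/-- `T_l` in terms of the conjugate representatives -/
theorem heckeT_eq_sum_hJ [NeZero N] (hl : l.Prime) (f : CuspForm (Gamma0 N) 2) :
    ModularForm.heckeT 2 l (f : ℍ → ℂ) = ∑ x, (f : ℍ → ℂ) ∣[(2 : ℤ)] hJ l x := by
  rw [heckeT_eq_sum_hdelta, Fintype.sum_option, Fintype.sum_option]
  congr 1
  choose t k htk using fun j : Fin l => exists_fin_mod hl.pos (-((j : ℕ) : ℤ))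
  have hinj : Function.Injective t := by
    intro i j hij
    have h1 := htk i
    have h2 := htk j
    rw [hij] at h1
    have h3 : (l : ℤ) ∣ ((i : ℕ) : ℤ) - ((j : ℕ) : ℤ) := ⟨k j - k i, by linear_combination h2 - h1⟩
    have h5 : ((i : ℕ) : ZMod l) = ((j : ℕ) : ZMod l) := by
      have := (ZMod.intCast_zmod_eq_zero_iff_dvd _ _).mpr h3
      push_cast at this
      exact sub_eq_zero.mp this
    rw [ZMod.natCast_eq_natCast_iff', Nat.mod_eq_of_lt i.2, Nat.mod_eq_of_lt j.2] at h5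
    exact Fin.ext h5
  have hbij : Function.Bijective t := Finite.injective_iff_bijective.mp hinj
  rw [← hbij.sum_comp]
  refine Finset.sum_congr rfl fun j _ => ?_
  -- `hJ j = T ^ k * h_{t j}`
  have e : hJ l (some j) = mapGL ℝ (ModularGroup.T ^ (k j)) * heckeMatrix l (t j) := by
    apply Units.ext
    rw [Units.val_mul, mapGL_T_zpow, val_tr, val_heckeMatrix hl.ne_zero, hJ, dif_neg hl.ne_zero,
      val_upperTriangularGL, Matrix.mul_fin_two]
    have h1 : (-((j : ℕ) : ℝ)) = ((t j : ℕ) : ℝ) + l * k j := by exact_mod_cast htk j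
    rw [h1]
    ext a b
    fin_cases a <;> fin_cases b <;> simp
    ring
  rw [e, SlashAction.slash_mul]
  change (f : ℍ → ℂ) ∣[(2 : ℤ)] heckeMatrix l (t j) = _
  congr 1
  have hT : (ModularGroup.T ^ (k j) : SL(2, ℤ)) ∈ Gamma0 N := by
    rw [Gamma0_mem, ModularGroup.coe_T_zpow]
    simp
  have h5 : (f : ℍ → ℂ) ∣[(2 : ℤ)] (mapGL ℝ (ModularGroup.T ^ (k j)) : GL (Fin 2) ℝ) = f :=
    SlashInvariantForm.slash_action_eqn f.toSlashInvariantForm _ ⟨_, hT, rfl⟩
  exact h5.symm

/-- additive functions as homomorphisms -/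
def toHom {A : Type*} [AddCommGroup A] {c : SL(2, ℤ) → A} (hc : AddOn (Gamma0 N) c) :
    Additive (Gamma0 N) →+ A where
  toFun γ := c (γ.toMul : SL(2, ℤ))
  map_zero' := hc.one
  map_add' γ δ := hc _ γ.toMul.2 _ δ.toMul.2

theorem toHom_apply {A : Type*} [AddCommGroup A] {c : SL(2, ℤ) → A} (hc : AddOn (Gamma0 N) c)
    (γ : Gamma0 N) : toHom hc (Additive.ofMul γ) = c (γ : SL(2, ℤ)) := rfl

/-- Hecke eigenvectors among the parabolic homomorphisms -/
structure IsEig {R A : Type*} [CommRing R] [AddCommGroup A] [Module R A] (N N' : ℕ) (a : ℕ → R)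
    (c : SL(2, ℤ) → A) : Prop where
  add : AddOn (Gamma0 N) c
  par : Parab (Gamma0 N) c
  hecke : ∀ l : ℕ, l.Prime → ¬ l ∣ N' → ∀ g ∈ Gamma0 N, opc (Gamma0 N) (Mx l) c g = a l • c g

/-- **Complex eigenvectors come from eigenforms.** -/
theorem eq_zero_of_eig_C {N' : ℕ} [NeZero N] (hNN : N ∣ N') {a : ℕ → ℂ}
    (hno : ∀ f : CuspForm (Gamma0 N) 2, f.IsNormalizedEigenform →
      ¬ ∀ l : ℕ, l.Prime → ¬ l ∣ N' → qCoeff f l = a l)
    {c : SL(2, ℤ) → ℂ} (hc : IsEig N N' a c) {g : SL(2, ℤ)} (hg : g ∈ Gamma0 N) : c g = 0 := by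
  have hmem : toHom hc.add ∈ ModularCurve.Period.parabolicHoms ℂ (Gamma0 N) ℂ :=
    fun γ hγ => hc.par γ γ.2 hγ
  rw [← range_eq] at hmem
  obtain ⟨⟨a₁, b₁⟩, hab⟩ := hmem
  rw [periodHomPair_apply] at hab
  set p := a₁ + b₁ with hp
  set r := a₁ - b₁ with hr
  have hφ : toHom hc.add = pml N p + ModularCurve.Period.charInvolution N ℂ ℂ (pml N r) := by
    rw [← hab, hp, hr, map_add, map_sub, map_sub]
    abel
  have hT : ∀ (l : ℕ) (hl : l.Prime) (hlN' : ¬ l ∣ N'),
      CuspForm.heckeTLin 2 hl (fun h => hlN' (h.trans hNN)) p = a l • p ∧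
      CuspForm.heckeTLin 2 hl (fun h => hlN' (h.trans hNN)) r = a l • r := by
    intro l hl hlN'
    have hlN : ¬ l ∣ N := fun h => hlN' (h.trans hNN)
    have key : pml N (CuspForm.heckeTLin 2 hl hlN p - a l • p) +
        ModularCurve.Period.charInvolution N ℂ ℂ
          (pml N (CuspForm.heckeTLin 2 hl hlN r - a l • r)) = 0 := by
      refine AddMonoidHom.ext fun γ => ?_
      obtain ⟨σ, γ', hγ', e⟩ := (corr_T hl hlN).exists_perm γ.toMul.2
      have h1 := hc.hecke l hl hlN' _ γ.toMul.2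
      rw [(corr_T hl hlN).opc_eq hc.add γ.toMul.2 hγ' e] at h1
      have h2 : ∀ x, c (γ' x) = pml N p (Additive.ofMul ⟨γ' x, hγ' x⟩) +
          pml N r (Additive.ofMul (ModularCurve.Period.jConjGamma0 N ⟨γ' x, hγ' x⟩)) := by
        intro x
        have h3 := DFunLike.congr_fun hφ (Additive.ofMul ⟨γ' x, hγ' x⟩)
        exact h3
      rw [Finset.sum_congr rfl fun x _ => h2 x, Finset.sum_add_distrib] at h1
      have h4 := pml_of_sum (hdelta l) (hdelta_pos l) (f := p)
        (h := CuspForm.heckeTLin 2 hl hlN p)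
        (by rw [CuspForm.coe_heckeTLin_apply]; exact heckeT_eq_sum_hdelta l _)
        γ.toMul (fun x => ⟨γ' x, hγ' x⟩) σ
        (fun x => gl_of_int (val_hdelta hl.ne_zero x) (val_hdelta hl.ne_zero _) (e x))
      have h5 := pml_of_sum (hJ l) (hJ_det_pos hl.ne_zero) (f := r)
        (h := CuspForm.heckeTLin 2 hl hlN r)
        (by rw [CuspForm.coe_heckeTLin_apply]; exact heckeT_eq_sum_hJ hl _)
        (ModularCurve.Period.jConjGamma0 N γ.toMul)
        (fun x => ModularCurve.Period.jConjGamma0 N ⟨γ' x, hγ' x⟩) σ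
        (fun x => gl_of_int (val_hJ hl.ne_zero x) (val_hJ hl.ne_zero _) (by
          have h6 := congrArg ModularCurve.Period.jConjMat (e x)
          rw [ModularCurve.Period.jConjMat_mul, ModularCurve.Period.jConjMat_mul] at h6
          exact h6))
      rw [← h4, ← h5] at h1
      have h7 := DFunLike.congr_fun hφ γ
      rw [AddMonoidHom.add_apply] at h7
      rw [AddMonoidHom.add_apply, map_sub, map_sub, map_sub, AddMonoidHom.sub_apply,
        AddMonoidHom.sub_apply, _root_.map_smul, _root_.map_smul, _root_.map_smul]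
      change pml N _ (Additive.ofMul γ.toMul) - a l * pml N p γ +
        (pml N _ (Additive.ofMul (ModularCurve.Period.jConjGamma0 N γ.toMul)) - a l *
          ModularCurve.Period.charInvolution N ℂ ℂ (pml N r) γ) = 0
      have h8 : c (γ.toMul : SL(2, ℤ)) = toHom hc.add γ := rfl
      rw [h8, h7, smul_eq_mul] at h1
      linear_combination h1
    obtain ⟨h1, h2⟩ := pml_add_inv_injective key
    exact ⟨sub_eq_zero.mp h1, sub_eq_zero.mp h2⟩
  have hzero : ∀ f : CuspForm (Gamma0 N) 2, (∀ (l : ℕ) (hl : l.Prime) (hlN' : ¬ l ∣ N'),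
      CuspForm.heckeTLin 2 hl (fun h => hlN' (h.trans hNN)) f = a l • f) → f = 0 := by
    intro f hf
    by_contra hne
    obtain ⟨h, hh, hh'⟩ := Fermat.Agent.RT.AL.exists_normalized hne {l | l ∣ N'} (a := a)
      (fun l hl hlN hlN' => hf l hl hlN')
    exact hno h hh fun l hl hlN' => hh' l hl (fun h => hlN' (h.trans hNN)) hlN'
  have hp0 : p = 0 := hzero p fun l hl hlN' => (hT l hl hlN').1
  have hr0 : r = 0 := hzero r fun l hl hlN' => (hT l hl hlN').2
  have h1 := DFunLike.congr_fun hφ (Additive.ofMul ⟨g, hg⟩)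
  rw [toHom_apply, hp0, hr0, map_zero, map_zero, add_zero] at h1
  exact h1

end Fermat.Agent.NF
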