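import Fermat.Agent.NF.ESZ

set_option autoImplicit false

/-!
# Newforms: vanishing of the traces, `U_q` and `w_q` on the eigenvectors
-/

open UpperHalfPlane hiding I
open Matrix Matrix.SpecialLinearGroup CongruenceSubgroup ModularForm ModularFormClass
open Fermat.Agent.ES Fermat.Agent.ESCore Fermat.Agent.DS Fermat.Agent.RT.Ihara
open scoped MatrixGroups

noncomputable section

namespace Fermat.Agent.NF

variable {N N' M q l : ℕ}

/-- ring homomorphisms from the algebraic integers to fields of characteristic zero are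
injective -/
theorem injective_of_charZero {K : Type*} [Field K] [CharZero K] (φ : integralClosure ℤ ℂ →+* K) :
    Function.Injective φ := by
  rw [RingHom.injective_iff_ker_eq_bot]
  refine Ideal.eq_bot_of_comap_eq_bot (R := ℤ) ?_
  rw [eq_bot_iff]
  intro n hn
  rw [Ideal.mem_comap, RingHom.mem_ker] at hn
  have h1 : (n : K) = 0 := by
    rw [← hn]
    simp
  rw [Ideal.mem_bot]
  exact_mod_cast h1

theorem IsEig.map {R A S B : Type*} [CommRing R] [AddCommGroup A] [Module R A] [CommRing S]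
    [AddCommGroup B] [Module S B] {a : ℕ → R} {b : ℕ → S} {c : SL(2, ℤ) → A}
    (hc : IsEig N N' a c) (Λ : A →+ B)
    (h : ∀ l, l.Prime → ¬ l ∣ N' → ∀ x, Λ (a l • x) = b l • Λ x) :
    IsEig N N' b (fun g => Λ (c g)) where
  add g hg h hh := by
    change Λ (c (g * h)) = Λ (c g) + Λ (c h)
    rw [hc.add g hg h hh, map_add]
  par g hg ht := by
    change Λ (c g) = 0
    rw [hc.par g hg ht, map_zero]
  hecke l hl hlN g hg := by
    rw [opc_map, hc.hecke l hl hlN g hg, h l hl hlN]

/-- **Eigenvectors come from eigenforms** (arbitrary field of characteristic zero). -/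
theorem eq_zero_of_eig [NeZero N] (hNN : N ∣ N') {a : ℕ → integralClosure ℤ ℂ}
    (hno : ∀ f : CuspForm (Gamma0 N) 2, f.IsNormalizedEigenform →
      ¬ ∀ l : ℕ, l.Prime → ¬ l ∣ N' → qCoeff f l = (a l : ℂ))
    {K : Type*} [Field K] [CharZero K] (φ : integralClosure ℤ ℂ →+* K)
    {c : SL(2, ℤ) → K} (hc : IsEig N N' (fun l => φ (a l)) c) {g : SL(2, ℤ)}
    (hg : g ∈ Gamma0 N) : c g = 0 := by
  by_contra hne
  let F := FractionRing (integralClosure ℤ ℂ)
  let ψ : F →+* K := IsFractionRing.lift (injective_of_charZero φ)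
  let _ : Algebra F K := ψ.toAlgebra
  let ψ' : F →+* ℂ := IsFractionRing.lift
    (g := algebraMap (integralClosure ℤ ℂ) ℂ) Subtype.val_injective
  obtain ⟨Λ, hΛ⟩ : ∃ Λ : Module.Dual F K, Λ (c g) ≠ 0 := by
    by_contra hh
    push Not at hh
    exact hne ((Module.forall_dual_apply_eq_zero_iff F _).mp hh)
  have h1 : IsEig N N' (fun l => (a l : ℂ)) (fun g => ψ'.toAddMonoidHom (Λ.toAddMonoidHom (c g))) := by
    refine (hc.map (b := fun l => algebraMap _ F (a l)) Λ.toAddMonoidHom fun l _ _ x => ?_).map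
      ψ'.toAddMonoidHom fun l _ _ x => ?_
    · have h2 : φ (a l) • x = algebraMap _ F (a l) • x := by
        rw [Algebra.smul_def (algebraMap _ F (a l)) x]
        have h3 : (algebraMap F K) (algebraMap _ F (a l)) = φ (a l) :=
          IsFractionRing.lift_algebraMap _ _
        rw [h3, smul_eq_mul]
      rw [h2]
      exact map_smul Λ _ _
    · change ψ' (algebraMap _ F (a l) * x) = (a l : ℂ) * ψ' x
      have h3 : ψ' (algebraMap _ F (a l)) = (a l : ℂ) := IsFractionRing.lift_algebraMap _ _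
      rw [map_mul, h3]
  have h2 := eq_zero_of_eig_C hNN hno h1 hg
  exact hΛ ((map_eq_zero_iff ψ' ψ'.injective).mp h2)

/-- eigenvalues as algebraic integers -/
def aO (g : CuspForm (Gamma0 N) 2) (l : ℕ) : integralClosure ℤ ℂ :=
  open Classical in
  if h : qCoeff g l ∈ integralClosure ℤ ℂ then ⟨qCoeff g l, h⟩ else 0

theorem coe_aO [NeZero N] {g : CuspForm (Gamma0 N) 2} (hg : g.IsNormalizedEigenform)
    (hl : l.Prime) : ((aO g l : integralClosure ℤ ℂ) : ℂ) = qCoeff g l := by
  have h : qCoeff g l ∈ integralClosure ℤ ℂ := by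
    by_cases hlN : l ∣ N
    · rw [← eigenHom_U hg hl hlN (Set.notMem_empty l)]
      exact Subtype.property _
    · rw [← eigenHom_T hg hl hlN (Set.notMem_empty l)]
      exact Subtype.property _
  rw [aO, dif_pos h]

/-- no eigenvectors at the lower levels -/
theorem eq_zero_of_newform [NeZero N] {g : CuspForm (Gamma0 N) 2} (hg : g.IsNewform)
    (hMN : M ∣ N) (hM : M ≠ N) (hNN : N ∣ N') (hN' : ∀ p : ℕ, p.Prime → p ∣ N' → p ∣ N)
    {K : Type*} [Field K] [CharZero K] (φ : integralClosure ℤ ℂ →+* K)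
    {c : SL(2, ℤ) → K} (hc : IsEig M N' (fun l => φ (aO g l)) c) {γ : SL(2, ℤ)}
    (hγ : γ ∈ Gamma0 M) : c γ = 0 := by
  have : NeZero M := ⟨fun h => NeZero.ne N (by rw [h, zero_dvd_iff] at hMN; exact hMN)⟩
  refine eq_zero_of_eig (hMN.trans hNN) (fun f hf hfa => ?_) φ hc hγ
  refine hg.2 M hMN hM ⟨f, hf, fun l hl hlN => ?_⟩
  rw [hfa l hl fun h => hlN (hN' l hl h), coe_aO hg.1 hl]

theorem zero_smul_eig {K : Type*} [Field K] {a : ℕ → K} {c : SL(2, ℤ) → K}
    (h : IsEig N N' a c) (hMN : N ∣ M) : AddOn (Gamma0 M) c := by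
  refine h.add.mono ?_
  intro g hg
  rw [mem_G0] at hg ⊢
  exact dvd_trans (by exact_mod_cast hMN) hg

section traces

variable {K : Type*} [Field K] [CharZero K] {a : ℕ → K} {c : SL(2, ℤ) → K}

theorem IsEig.trace {κ : Type*} [Fintype κ] {R : κ → Mat} (hc : IsEig N N' a c) (hMN : M ∣ N)
    (hNN : N ∣ N') (HR : Corr (Gamma0 N) (Gamma0 M) R)
    (hR : ∀ x, ∃ r ∈ Gamma0 M, R x = (r : Mat)) : IsEig M N' a (opc (Gamma0 N) R c) where
  add := HR.addOn hc.add
  par := Corr.parab HR hc.add hc.par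
  hecke l hl hlN g hg := by
    have h1 : opc (Gamma0 N) R (opc (Gamma0 N) (Mx l) c) g =
        opc (Gamma0 N) R (a l • c) g := by
      refine HR.opc_congr ((corr_T hl fun h => hlN (h.trans hNN)).addOn hc.add)
        (fun g hg => hc.hecke l hl hlN g hg) hg
    rw [comm_R hl (fun h => hlN (h.trans hNN)) hMN HR hR hc.add hg, h1, opc_smul]
    rfl

theorem IsEig.opU (hc : IsEig N N' a c) (hq : q.Prime) (hqM : q ∣ M) (hMN : M ∣ N)
    (hN : N ∣ q * M) (hNN : N ∣ N') : IsEig M N' a (opc (Gamma0 N) (Um q) c) where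
  add := (corr_U hq hqM hN).addOn hc.add
  par := Corr.parab (corr_U hq hqM hN) hc.add hc.par
  hecke l hl hlN g hg := by
    have h1 : opc (Gamma0 N) (Um q) (opc (Gamma0 N) (Mx l) c) g =
        opc (Gamma0 N) (Um q) (a l • c) g := by
      refine (corr_U hq hqM hN).opc_congr ((corr_T hl fun h => hlN (h.trans hNN)).addOn hc.add)
        (fun g hg => hc.hecke l hl hlN g hg) hg
    rw [comm_U hl (fun h => hlN (h.trans hNN)) hq hqM hMN hN hc.add hg, h1, opc_smul]
    rfl

theorem IsEig.opW (hc : IsEig (q * M) N' a c) (hq : q ≠ 0) {w y : ℤ} (hb : q * w - M * y = 1)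
    (hNN : q * M ∣ N') : IsEig (q * M) N' a (opW q M w y c) where
  add := (corr_W hq hb).addOn hc.add
  par := Corr.parab (corr_W hq hb) hc.add hc.par
  hecke l hl hlN g hg := by
    have h1 : opc (Gamma0 (q * M)) (fun _ : Unit => Wm q M w y) (opc (Gamma0 (q * M)) (Mx l) c) g =
        opc (Gamma0 (q * M)) (fun _ : Unit => Wm q M w y) (a l • c) g := by
      refine (corr_W hq hb).opc_congr ((corr_T hl fun h => hlN (h.trans hNN)).addOn hc.add)
        (fun g hg => hc.hecke l hl hlN g hg) hg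
    have h2 := comm_W hl (fun h => hlN (h.trans hNN)) hq hb hc.add hg
    refine h2.trans ?_
    rw [h1, opc_smul]
    rfl

end traces

end Fermat.Agent.NF
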