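import Fermat.Agent.NF.New2

set_option autoImplicit false

/-!
# Characters attached to newforms: `T_l`, `U_q`, `w_q` and the traces
-/

open UpperHalfPlane hiding I
open Matrix Matrix.SpecialLinearGroup CongruenceSubgroup ModularForm ModularFormClass
open Fermat.Agent.ES Fermat.Agent.ESCore Fermat.Agent.DS Fermat.Agent.RT.Ihara
open Multiplicative (toAdd ofAdd)
open scoped MatrixGroups

noncomputable section

namespace Fermat.Agent.NF

variable {N N' M q l : ℕ} {A : Type*} [CommRing A]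

/-- parabolic Hecke eigenvectors `Γ₀(N) → A` attached to an eigenform (`φ` is an embedding of the
algebraic integers) -/
structure NewChar (g : CuspForm (Gamma0 N) 2) (φ : integralClosure ℤ ℂ →+* A)
    (χ : Gamma0 N →* Multiplicative A) : Prop where
  par : ∀ γ : Gamma0 N, ((γ : SL(2, ℤ)) : Mat).trace ^ 2 = 4 → χ γ = 1
  T : ∀ (l : ℕ) (hl : l.Prime) (hlN : ¬ l ∣ N) (γ : Gamma0 N),
    toAdd (heckeChar hl hlN χ γ) = φ (aO g l) * toAdd (χ γ)
  U : ∀ (q : ℕ) (hq : q.Prime) (hqN : q ∣ N) (γ : Gamma0 N),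
    toAdd (heckeCharU hq.ne_zero hqN χ γ) = φ (aO g q) * toAdd (χ γ)

section

variable {g : CuspForm (Gamma0 N) 2} {φ : integralClosure ℤ ℂ →+* A}
  {χ : Gamma0 N →* Multiplicative A}

/-- the change of the ring of values -/
theorem NewChar.map (h : NewChar g φ χ) {B : Type*} [CommRing B] (ψ : A →+* B) :
    NewChar g (ψ.comp φ) ((AddMonoidHom.toMultiplicative ψ.toAddMonoidHom).comp χ) where
  par γ hγ := by
    rw [MonoidHom.comp_apply, h.par γ hγ, map_one]
  T l hl hlN γ := by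
    rw [heckeChar, CosetSys.trans_comp]
    change ψ (toAdd (heckeChar hl hlN χ γ)) = _
    rw [h.T l hl hlN γ, map_mul]
    rfl
  U q hq hqN γ := by
    rw [heckeCharU, CosetSys.trans_comp]
    change ψ (toAdd (heckeCharU hq.ne_zero hqN χ γ)) = _
    rw [h.U q hq hqN γ, map_mul]
    rfl

/-- descent of the ring of values -/
theorem NewChar.of_map {B : Type*} [CommRing B] {ψ : A →+* B} (hψ : Function.Injective ψ)
    (h : NewChar g (ψ.comp φ) ((AddMonoidHom.toMultiplicative ψ.toAddMonoidHom).comp χ)) :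
    NewChar g φ χ where
  par γ hγ := by
    have h1 := h.par γ hγ
    have h2 : ψ (toAdd (χ γ)) = 0 := h1
    have h3 : toAdd (χ γ) = 0 := hψ (by rw [h2, map_zero])
    exact h3
  T l hl hlN γ := by
    have h1 := h.T l hl hlN γ
    rw [heckeChar, CosetSys.trans_comp] at h1
    refine hψ ?_
    rw [map_mul]
    exact h1
  U q hq hqN γ := by
    have h1 := h.U q hq hqN γ
    rw [heckeCharU, CosetSys.trans_comp] at h1
    refine hψ ?_
    rw [map_mul]
    exact h1

theorem NewChar.isEig (h : NewChar g φ χ) : IsEig N N (fun l => φ (aO g l)) (ofChar χ) where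
  add := addOn_ofChar χ
  par γ hγ ht := by
    rw [ofChar_mem χ hγ, h.par ⟨γ, hγ⟩ ht]
    rfl
  hecke l hl hlN γ hγ := by
    have h1 := h.T l hl hlN ⟨γ, hγ⟩
    rw [toAdd_heckeChar] at h1
    rw [h1, ofChar_mem χ hγ, smul_eq_mul]

theorem NewChar.opU (h : NewChar g φ χ) (hq : q.Prime) (hqN : q ∣ N) {γ : SL(2, ℤ)}
    (hγ : γ ∈ Gamma0 N) : opc (Gamma0 N) (Um q) (ofChar χ) γ = φ (aO g q) * ofChar χ γ := by
  have h1 := h.U q hq hqN ⟨γ, hγ⟩
  rw [toAdd_heckeCharU hq] at h1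
  rw [h1, ofChar_mem χ hγ]

end

section field

variable {K : Type*} [Field K] [CharZero K] [NeZero N] {g : CuspForm (Gamma0 N) 2}
  {φ : integralClosure ℤ ℂ →+* K} {χ : Gamma0 N →* Multiplicative K}

/-- `w_q` on the eigenvectors, `q ‖ N`: the vanishing of the trace of `w_q χ` -/
theorem NewChar.opW_field (h : NewChar g φ χ) (hg : g.IsNewform) (hq : q.Prime) (hN : N = q * M)
    {w y : ℤ} (hb : q * w - M * y = 1) {γ : SL(2, ℤ)} (hγ : γ ∈ Gamma0 N) :
    opW q M w y (ofChar χ) γ = -(φ (aO g q) * ofChar χ γ) := by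
  subst hN
  have hM0 : M ≠ 0 := fun h => NeZero.ne (q * M) (by rw [h, mul_zero])
  have hMN : M ≠ q * M := by
    intro h
    have h1 := hq.two_le
    have h2 := Nat.pos_of_ne_zero hM0
    nlinarith
  have hE := h.isEig
  have h1 := (hE.opW hq.ne_zero hb dvd_rfl).trace (dvd_mul_left _ _) dvd_rfl
    (corr_R1 hq hM0 hb) (R1_coe hb)
  have hγM : γ ∈ Gamma0 M := by
    rw [mem_G0] at hγ ⊢
    exact dvd_trans (by push_cast; exact dvd_mul_left _ _) hγ
  have h2 := eq_zero_of_newform hg (dvd_mul_left _ _) hMN dvd_rfl (fun _ _ h => h) φ h1 hγM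
  rw [opc_R1_W hq hM0 hb hE.add hγ, h.opU hq (dvd_mul_right _ _) hγ] at h2
  linear_combination h2

/-- the eigenvalue `a_q` is a sign, `q ‖ N` -/
theorem NewChar.sq_field (h : NewChar g φ χ) (hχ : χ ≠ 1) (hg : g.IsNewform) (hq : q.Prime)
    (hN : N = q * M) (hqM : ¬ q ∣ M) : φ (aO g q) ^ 2 = 1 := by
  obtain ⟨w, y, hb⟩ : ∃ w y : ℤ, q * w - M * y = 1 := by
    obtain ⟨w, y, h⟩ := (Nat.isCoprime_iff_coprime.mpr ((Nat.Prime.coprime_iff_not_dvd hq).mpr hqM))
    exact ⟨w, -y, by linear_combination h⟩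
  obtain ⟨γ, hγ⟩ : ∃ γ, χ γ ≠ 1 := by
    by_contra hh
    push Not at hh
    exact hχ (MonoidHom.ext hh)
  subst hN
  have h1 := opW_opW hq.ne_zero hb (addOn_ofChar χ) γ.2
  have h2 : opW q M w y (opW q M w y (ofChar χ)) γ =
      opW q M w y (-φ (aO g q) • ofChar χ) γ := by
    refine (corr_W hq.ne_zero hb).opc_congr ((corr_W hq.ne_zero hb).addOn (addOn_ofChar χ))
      (fun δ hδ => ?_) γ.2
    refine (h.opW_field hg hq rfl hb hδ).trans ?_
    rw [Pi.smul_apply, smul_eq_mul, neg_mul]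
  have h5 : opc (Gamma0 (q * M)) (fun _ : Unit => Wm q M w y) (ofChar χ) γ = _ :=
    h.opW_field hg hq rfl hb γ.2
  rw [h2, opW, opc_smul, Pi.smul_apply, h5, ofChar_coe, smul_eq_mul] at h1
  have h3 : toAdd (χ γ) ≠ 0 := hγ
  have h4 : (φ (aO g q) ^ 2 - 1) * toAdd (χ γ) = 0 := by linear_combination h1
  exact sub_eq_zero.mp ((mul_eq_zero.mp h4).resolve_right h3)

/-- `U_q = 0` on the functions on `Γ₀(N / q)`, `q² ∣ N` -/
theorem NewChar.opU_zero_field (h : NewChar g φ χ) (hg : g.IsNewform) (hq : q.Prime)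
    (hN : N = q * M) (hqM : q ∣ M) {γ : SL(2, ℤ)} (hγ : γ ∈ Gamma0 M) :
    opc (Gamma0 N) (Um q) (ofChar χ) γ = 0 := by
  subst hN
  have hM0 : M ≠ 0 := fun h => NeZero.ne (q * M) (by rw [h, mul_zero])
  have hMN : M ≠ q * M := by
    intro h
    have h1 := hq.two_le
    have h2 := Nat.pos_of_ne_zero hM0
    nlinarith
  exact eq_zero_of_newform hg (dvd_mul_left _ _) hMN dvd_rfl (fun _ _ h => h) φ
    (h.isEig.opU hq hqM (dvd_mul_left _ _) dvd_rfl dvd_rfl) hγ

/-- the trace to level `N / q` vanishes, `q² ∣ N` -/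
theorem NewChar.trace_zero_field (h : NewChar g φ χ) (hg : g.IsNewform) (hq : q.Prime)
    (hN : N = q * M) (hqM : q ∣ M) {γ : SL(2, ℤ)} (hγ : γ ∈ Gamma0 M) :
    opc (Gamma0 N) (R2 q M) (ofChar χ) γ = 0 := by
  subst hN
  have hM0 : M ≠ 0 := fun h => NeZero.ne (q * M) (by rw [h, mul_zero])
  have hMN : M ≠ q * M := by
    intro h
    have h1 := hq.two_le
    have h2 := Nat.pos_of_ne_zero hM0
    nlinarith
  exact eq_zero_of_newform hg (dvd_mul_left _ _) hMN dvd_rfl (fun _ _ h => h) φ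
    (h.isEig.trace (dvd_mul_left _ _) dvd_rfl (corr_R2 hq hqM hM0) R2_coe) hγ

/-- `a_q = 0`, `q² ∣ N` -/
theorem NewChar.zero_field (h : NewChar g φ χ) (hχ : χ ≠ 1) (hg : g.IsNewform) (hq : q.Prime)
    (hN : N = q * M) (hqM : q ∣ M) : φ (aO g q) = 0 := by
  obtain ⟨γ, hγ⟩ : ∃ γ, χ γ ≠ 1 := by
    by_contra hh
    push Not at hh
    exact hχ (MonoidHom.ext hh)
  have h3 : toAdd (χ γ) ≠ 0 := hγ
  have hγM : (γ : SL(2, ℤ)) ∈ Gamma0 M := by
    have := γ.2
    rw [mem_G0] at this ⊢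
    exact dvd_trans (by rw [hN]; push_cast; exact dvd_mul_left _ _) this
  have h1 := h.opU_zero_field hg hq hN hqM hγM
  rw [h.opU hq (hN ▸ dvd_mul_right _ _) γ.2, ofChar_coe] at h1
  exact (mul_eq_zero.mp h1).resolve_right h3

end field

section domain

variable {g : CuspForm (Gamma0 N) 2}
  {φ : integralClosure ℤ ℂ →+* A} {χ : Gamma0 N →* Multiplicative A}

theorem ofChar_map {B : Type*} [CommRing B] (ψ : A →+* B) (γ : SL(2, ℤ)) :
    ofChar ((AddMonoidHom.toMultiplicative ψ.toAddMonoidHom).comp χ) γ = ψ (ofChar χ γ) := by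
  by_cases h : γ ∈ Gamma0 N
  · rw [ofChar_mem _ h, ofChar_mem _ h]
    rfl
  · rw [ofChar, dif_neg h, ofChar, dif_neg h, map_zero]

/-- reduction to the case of a field -/
theorem NewChar.frac (h : NewChar g φ χ) :
    NewChar g ((algebraMap A (FractionRing A)).comp φ)
      ((AddMonoidHom.toMultiplicative (algebraMap A (FractionRing A)).toAddMonoidHom).comp χ) :=
  h.map _

theorem opc_frac {ι : Type*} [Fintype ι] (D : ι → Mat) (γ : SL(2, ℤ)) :
    opc (Gamma0 N) D (ofChar ((AddMonoidHom.toMultiplicative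
      (algebraMap A (FractionRing A)).toAddMonoidHom).comp χ)) γ =
      algebraMap A (FractionRing A) (opc (Gamma0 N) D (ofChar χ) γ) := by
  have h1 : ofChar ((AddMonoidHom.toMultiplicative
      (algebraMap A (FractionRing A)).toAddMonoidHom).comp χ) =
      fun γ => (algebraMap A (FractionRing A)).toAddMonoidHom (ofChar χ γ) :=
    funext fun γ => ofChar_map _ γ
  rw [h1]
  exact opc_map _ D _ γ

variable [IsDomain A] [CharZero A] [NeZero N]

instance : CharZero (FractionRing A) := charZero_of_injective_algebraMap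
  (IsFractionRing.injective A (FractionRing A))

omit [NeZero N] [IsDomain A] [CharZero A] in
theorem frac_ne_one (hχ : χ ≠ 1) : (AddMonoidHom.toMultiplicative
    (algebraMap A (FractionRing A)).toAddMonoidHom).comp χ ≠ 1 := by
  intro h
  apply hχ
  ext γ
  have h1 := DFunLike.congr_fun h γ
  have h2 : algebraMap A (FractionRing A) (toAdd (χ γ)) = 0 := h1
  have h3 : toAdd (χ γ) = 0 := IsFractionRing.injective A (FractionRing A) (by rw [h2, map_zero])
  exact h3

variable [NeZero q] [NeZero M]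

/-- **`w_q` on the eigenvectors, `q ‖ N`**, for every level `qK` with `K ∣ M`. -/
theorem NewChar.wChar (h : NewChar g φ χ) (hg : g.IsNewform) (hq : q.Prime) {K : ℕ}
    (B : LG.Bez q M) (hK : K ∣ M) (hN : N = q * K) (γ : Gamma0 N) :
    toAdd (B.wChar hK hN χ γ) = -(φ (aO g q) * toAdd (χ γ)) := by
  obtain ⟨r, hr⟩ := hK
  rw [toAdd_wChar B hr hN χ γ]
  have hM' : (M : ℤ) = K * r := by exact_mod_cast hr
  have hb : (q : ℤ) * B.w - K * (r * B.y) = 1 := by
    have hB := B.det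
    rw [← hB, hM']
    ring
  have h1 := h.frac.opW_field hg hq hN hb γ.2
  subst hN
  apply IsFractionRing.injective A (FractionRing A)
  rw [opW, opc_frac, ofChar_map, ofChar_coe] at h1
  rw [h1, map_neg, map_mul]
  rfl

omit [NeZero q] [NeZero M] in
/-- the eigenvalue `a_q` is a sign, `q ‖ N` -/
theorem NewChar.sign (h : NewChar g φ χ) (hχ : χ ≠ 1) (hg : g.IsNewform) (hq : q.Prime)
    (hN : N = q * M) (hqM : ¬ q ∣ M) : ∃ ε : ℤ, (ε = 1 ∨ ε = -1) ∧ qCoeff g q = ε ∧
      φ (aO g q) = ε := by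
  have h1 := h.frac.sq_field (frac_ne_one hχ) hg hq hN hqM
  have hinj : Function.Injective ((algebraMap A (FractionRing A)).comp φ) :=
    injective_of_charZero _
  have h2 : aO g q ^ 2 = 1 := hinj (by rw [map_pow, h1, map_one])
  rcases sq_eq_one_iff.mp h2 with h3 | h3
  · refine ⟨1, Or.inl rfl, ?_, by rw [h3]; simp⟩
    rw [← coe_aO hg.1 hq, h3]
    simp
  · refine ⟨-1, Or.inr rfl, ?_, by rw [h3]; simp⟩
    rw [← coe_aO hg.1 hq, h3]
    simp

end domain

end Fermat.Agent.NF
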