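import Fermat.Agent.NF.New3

set_option autoImplicit false

/-!
# Existence of the characters attached to newforms; summary
-/

open UpperHalfPlane hiding I
open Matrix Matrix.SpecialLinearGroup CongruenceSubgroup ModularForm ModularFormClass
open Fermat.Agent.ES Fermat.Agent.ESCore Fermat.Agent.DS Fermat.Agent.RT.Ihara
open Multiplicative (toAdd ofAdd)
open scoped MatrixGroups

noncomputable section

namespace Fermat.Agent.NF

variable {N N' M q l : ℕ} [NeZero N]

variable (N) in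
/-- the universal character: `γ ↦` the period of `γ` -/
def prM (S : Set ℕ) : Gamma0 N →* Multiplicative (LatM N S) where
  toFun γ := ofAdd ((perHom N).rangeRestrict (Additive.ofMul γ) : LatM N S)
  map_one' := by
    rw [ofMul_one, map_zero]
    rfl
  map_mul' a b := by
    rw [ofMul_mul, map_add]
    rfl

theorem toAdd_prM (S : Set ℕ) (γ : Gamma0 N) :
    (toAdd (prM N S γ) : LatM N S).1 = perHom N (Additive.ofMul γ) := rfl

theorem prM_surjective (S : Set ℕ) (v : LatM N S) : ∃ γ : Gamma0 N, toAdd (prM N S γ) = v := by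
  obtain ⟨γ, hγ⟩ := AddMonoidHom.rangeRestrict_surjective (perHom N) v
  exact ⟨γ.toMul, hγ⟩

theorem prM_par (S : Set ℕ) (γ : Gamma0 N) (hγ : ((γ : SL(2, ℤ)) : Mat).trace ^ 2 = 4) :
    prM N S γ = 1 := by
  have h1 : toAdd (prM N S γ) = 0 := by
    apply Subtype.ext
    refine LinearMap.ext fun f => ?_
    exact pml_mem_parabolicHoms f γ hγ
  exact h1

theorem prM_of_sum {S : Set ℕ} {ι : Type*} [Fintype ι] (δ : ι → GL (Fin 2) ℝ)
    (hδ : ∀ x, 0 < (δ x).det.val) {t : CuspForm.heckeAlgebra N 2 S}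
    (ht : ∀ f, (⇑(t.1 f) : ℍ → ℂ) = ∑ x, (⇑f : ℍ → ℂ) ∣[(2 : ℤ)] δ x)
    (Sys : CosetSys (gam N) ι) (hS : Sys.δ = δ) (γ : Gamma0 N) :
    toAdd (Sys.trans (gam_injective N) (prM N S) γ) = t • toAdd (prM N S γ) := by
  have h1 := perHom_comp_of_sum δ hδ ht γ (Sys.coc γ)
    (Equiv.ofBijective _ (Sys.tgt_bijective γ)) (fun x => by rw [← hS]; exact Sys.spec γ x)
  rw [CosetSys.trans_apply', toAdd_prod]
  apply Subtype.ext
  rw [LatM_smul_coe]
  refine Eq.trans ?_ h1.symm
  exact map_sum (perLat N).subtype (fun x => toAdd (prM N S (Sys.coc γ x))) _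

theorem heckeChar_prM {S : Set ℕ} (hl : l.Prime) (hlN : ¬ l ∣ N) (hlS : l ∉ S) (γ : Gamma0 N) :
    toAdd (heckeChar hl hlN (prM N S) γ) =
      (CuspForm.heckeAlgebra.T hl hlN hlS : CuspForm.heckeAlgebra N 2 S) • toAdd (prM N S γ) :=
  prM_of_sum (hdelta l) (hdelta_pos l) (fun f => heckeT_eq_sum_hdelta l f) (heckeSys hl hlN) rfl γ

theorem heckeCharU_prM {S : Set ℕ} (hq : q.Prime) (hqN : q ∣ N) (hqS : q ∉ S) (γ : Gamma0 N) :
    toAdd (heckeCharU hq.ne_zero hqN (prM N S) γ) =
      (CuspForm.heckeAlgebra.U hq hqN hqS : CuspForm.heckeAlgebra N 2 S) • toAdd (prM N S γ) :=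
  prM_of_sum (fun x : Fin q => heckeMatrix q x) (fun x => det_heckeMatrix_pos q _)
    (fun f => heckeU_eq_sum_fin q f) (heckeSysU hq.ne_zero hqN) rfl γ

/-- the character attached to a functional on the period lattice -/
def vChar {A : Type*} [AddCommGroup A] {S : Set ℕ} (v : LatM N S →+ A) :
    Gamma0 N →* Multiplicative A := (AddMonoidHom.toMultiplicative v).comp (prM N S)

theorem toAdd_vChar {A : Type*} [AddCommGroup A] {S : Set ℕ} (v : LatM N S →+ A) (γ : Gamma0 N) :
    toAdd (vChar v γ) = v (toAdd (prM N S γ)) := rfl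

theorem vChar_ne_one {A : Type*} [AddCommGroup A] {S : Set ℕ} {v : LatM N S →+ A} (hv : v ≠ 0) :
    vChar v ≠ 1 := by
  intro h
  apply hv
  refine AddMonoidHom.ext fun x => ?_
  obtain ⟨γ, rfl⟩ := prM_surjective S x
  exact DFunLike.congr_fun h γ

variable {A : Type*} [CommRing A] {g : CuspForm (Gamma0 N) 2} {φ : integralClosure ℤ ℂ →+* A}

theorem eigenHom_T' (hg : g.IsNormalizedEigenform) {S : Set ℕ} (hl : l.Prime) (hlN : ¬ l ∣ N)
    (hlS : l ∉ S) : eigenHom hg S (CuspForm.heckeAlgebra.T hl hlN hlS) = aO g l := by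
  apply Subtype.ext
  rw [eigenHom_T hg hl hlN hlS, coe_aO hg hl]

theorem eigenHom_U' (hg : g.IsNormalizedEigenform) {S : Set ℕ} (hq : q.Prime) (hqN : q ∣ N)
    (hqS : q ∉ S) : eigenHom hg S (CuspForm.heckeAlgebra.U hq hqN hqS) = aO g q := by
  apply Subtype.ext
  rw [eigenHom_U hg hq hqN hqS, coe_aO hg hq]

/-- functionals with the Hecke eigenvalues of `g` define characters -/
theorem newChar_of_vec (hg : g.IsNormalizedEigenform) {v : LatM N ∅ →+ A}
    (hv : ∀ (t : CuspForm.heckeAlgebra N 2 ∅) (x : LatM N ∅),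
      v (t • x) = φ (eigenHom hg ∅ t) * v x) : NewChar g φ (vChar v) where
  par γ hγ := by
    rw [vChar, MonoidHom.comp_apply, prM_par ∅ γ hγ, map_one]
  T l hl hlN γ := by
    rw [heckeChar, vChar, CosetSys.trans_comp]
    change v (toAdd (heckeChar hl hlN (prM N ∅) γ)) = _
    rw [heckeChar_prM hl hlN (Set.notMem_empty l), hv, eigenHom_T']
    rfl
  U q hq hqN γ := by
    rw [heckeCharU, vChar, CosetSys.trans_comp]
    change v (toAdd (heckeCharU hq.ne_zero hqN (prM N ∅) γ)) = _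
    rw [heckeCharU_prM hq hqN (Set.notMem_empty q), hv, eigenHom_U']
    rfl

/-- **Existence of the functionals**. -/
theorem exists_vec [IsDomain A] (hg : g.IsNormalizedEigenform) (S : Set ℕ)
    (φ : integralClosure ℤ ℂ →+* A) :
    ∃ v : LatM N S →+ A, v ≠ 0 ∧ ∀ (t : CuspForm.heckeAlgebra N 2 S) (x : LatM N S),
      v (t • x) = φ (eigenHom hg S t) * v x := by
  classical
  let K := FractionRing A
  obtain ⟨Λ, hΛ0, hΛ⟩ := exists_functional (LatM_faithful (N := N) S)
    (((algebraMap A K).comp φ).comp (eigenHom hg S))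
  have hfin : Module.Finite ℤ (LatM N S) := by
    have h2 : AddGroup.FG (perLat N) := (AddGroup.fg_iff_addSubgroup_fg _).mpr perLat_fg
    have h3 : Module.Finite ℤ (perLat N) := Module.Finite.iff_addGroup_fg.mpr h2
    exact h3
  obtain ⟨s, hs⟩ := hfin.fg_top
  obtain ⟨D, hD⟩ := IsLocalization.exist_integer_multiples_of_finset (nonZeroDivisors A)
    (s.image Λ)
  have hD0 : algebraMap A K D ≠ 0 := fun h =>
    nonZeroDivisors.ne_zero D.2 ((IsFractionRing.injective A K) (by rw [h, map_zero]))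
  have hint : ∀ x, ∃ a : A, algebraMap A K a = algebraMap A K D * Λ x := by
    intro x
    have hx : x ∈ Submodule.span ℤ (s : Set (LatM N S)) := by rw [hs]; trivial
    induction hx using Submodule.span_induction with
    | mem x hx =>
      obtain ⟨a, ha⟩ := hD (Λ x) (Finset.mem_image_of_mem _ hx)
      refine ⟨a, ?_⟩
      rw [ha, Algebra.smul_def]
    | zero => exact ⟨0, by rw [map_zero, map_zero, mul_zero]⟩
    | add x y _ _ hx hy =>
      obtain ⟨a, ha⟩ := hx
      obtain ⟨b, hb⟩ := hy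
      exact ⟨a + b, by rw [map_add, map_add, ha, hb, mul_add]⟩
    | smul n x _ hx =>
      obtain ⟨a, ha⟩ := hx
      refine ⟨n • a, ?_⟩
      rw [map_zsmul, map_zsmul, ha, mul_smul_comm]
  choose v hv using hint
  have hinj := IsFractionRing.injective A K
  refine ⟨⟨⟨v, hinj (by rw [hv, map_zero, mul_zero, map_zero])⟩, fun x y => hinj (by
    rw [hv, map_add, map_add, hv, hv, mul_add])⟩, fun h => hΛ0 ?_, fun t x => hinj ?_⟩
  · refine AddMonoidHom.ext fun x => ?_
    have h1 : v x = 0 := DFunLike.congr_fun h x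
    have h2 := hv x
    rw [h1, map_zero] at h2
    exact (mul_eq_zero.mp h2.symm).resolve_left hD0
  · change algebraMap A K (v (t • x)) = algebraMap A K (φ (eigenHom hg S t) * v x)
    rw [hv, map_mul, hv, hΛ]
    change _ * (algebraMap A K (φ (eigenHom hg S t)) * _) = _
    ring

/-- **Existence of the characters**. -/
theorem exists_newChar [IsDomain A] (hg : g.IsNormalizedEigenform)
    (φ : integralClosure ℤ ℂ →+* A) :
    ∃ v : LatM N ∅ →+ A, v ≠ 0 ∧ (∀ (t : CuspForm.heckeAlgebra N 2 ∅) (x : LatM N ∅),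
      v (t • x) = φ (eigenHom hg ∅ t) * v x) ∧ NewChar g φ (vChar v) ∧ vChar v ≠ 1 := by
  obtain ⟨v, hv0, hv⟩ := exists_vec hg ∅ φ
  exact ⟨v, hv0, hv, newChar_of_vec hg hv, vChar_ne_one hv0⟩

end Fermat.Agent.NF
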