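import Fermat.Agent.NF.New4

set_option autoImplicit false

/-!
# Characters attached to newforms: traces, and characters with values in arbitrary groups
-/

open UpperHalfPlane hiding I
open Matrix Matrix.SpecialLinearGroup CongruenceSubgroup ModularForm ModularFormClass
open Fermat.Agent.ES Fermat.Agent.ESCore Fermat.Agent.DS Fermat.Agent.RT.Ihara
open Multiplicative (toAdd ofAdd)
open scoped MatrixGroups

noncomputable section

namespace Fermat.Agent.NF

variable {N M q l : ℕ}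

/-- every system of representatives of `Γ₀(qM) \ Γ₀(M)`, `q ∣ M`, defines the same trace -/
theorem opc_reps {A : Type*} [AddCommGroup A] (hq : q.Prime) (hqM : q ∣ M) (hM : M ≠ 0)
    {ι : Type*} [Fintype ι] (hι : Fintype.card ι = q) (r : ι → SL(2, ℤ))
    (hr : ∀ x, r x ∈ Gamma0 M) (hinj : ∀ x y, r x * (r y)⁻¹ ∈ Gamma0 (q * M) → x = y)
    {c : SL(2, ℤ) → A} (hc : AddOn (Gamma0 (q * M)) c) {γ : SL(2, ℤ)} (hγ : γ ∈ Gamma0 M) :
    Corr (Gamma0 (q * M)) (Gamma0 M) (fun x => (r x : Mat)) ∧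
      opc (Gamma0 (q * M)) (fun x => (r x : Mat)) c γ = opc (Gamma0 (q * M)) (R2 q M) c γ := by
  have H2 := corr_R2 hq hqM hM
  have h0 : R2 q M ⟨0, hq.pos⟩ = 1 := by
    ext a b
    fin_cases a <;> fin_cases b <;> simp [R2]
  have hex : ∀ g ∈ Gamma0 M, ∃ y : Fin q, ∃ g' ∈ Gamma0 (q * M), (g : Mat) = (g' : Mat) * R2 q M y := by
    intro g hg
    obtain ⟨y, g', hg', e⟩ := H2.act ⟨0, hq.pos⟩ g hg
    rw [h0, one_mul] at e
    exact ⟨y, g', hg', e⟩
  choose f g' hg' e using fun x => hex (r x) (hr x)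
  have hf : Function.Injective f := by
    intro x y hxy
    apply hinj
    have e1 := e x
    have e2 := e y
    rw [hxy] at e1
    have e3 : (r x * (r y)⁻¹ : SL(2, ℤ)) = g' x * (g' y)⁻¹ := by
      have e4 : (g' x)⁻¹ * r x = (g' y)⁻¹ * r y := by
        apply Subtype.ext
        rw [sl_coe_mul, sl_coe_mul, e1, e2, ← mul_assoc, ← mul_assoc, ← sl_coe_mul, ← sl_coe_mul,
          inv_mul_cancel, inv_mul_cancel]
      rw [mul_inv_eq_iff_eq_mul, mul_assoc, ← e4, mul_inv_cancel_left]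
    rw [e3]
    exact mul_mem (hg' x) (inv_mem (hg' y))
  have hbij : Function.Bijective f := by
    rw [Fintype.bijective_iff_injective_and_card]
    exact ⟨hf, by rw [hι, Fintype.card_fin]⟩
  set F := Equiv.ofBijective f hbij with hF
  have H : Corr (Gamma0 (q * M)) (Gamma0 M) (fun x => (r x : Mat)) := by
    refine corr_of_cosets r (fun _ => rfl) hr (fun g hg => ?_) hinj
    obtain ⟨y, g₁, hg₁, e₁⟩ := hex g hg
    obtain ⟨x, rfl⟩ := hbij.2 y
    refine ⟨x, ?_⟩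
    have e4 : g₁⁻¹ * g = (g' x)⁻¹ * r x := by
      apply Subtype.ext
      rw [sl_coe_mul, sl_coe_mul, e₁, e x, ← mul_assoc, ← mul_assoc, ← sl_coe_mul, ← sl_coe_mul,
        inv_mul_cancel, inv_mul_cancel]
    have e5 : g * (r x)⁻¹ = g₁ * (g' x)⁻¹ := by
      rw [mul_inv_eq_iff_eq_mul, mul_assoc, ← e4, mul_inv_cancel_left]
    rw [e5]
    exact mul_mem hg₁ (inv_mem (hg' x))
  refine ⟨H, opc_eq_of_equiv H H2 hc F (fun x => ?_) hγ⟩
  refine ⟨1, 1, one_pos, one_pos, g' x, hg' x, ?_⟩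
  rw [one_smul, one_smul]
  exact (e x).symm

variable {A : Type*} [CommRing A] [IsDomain A] [CharZero A] [NeZero N]
  {g : CuspForm (Gamma0 N) 2} {φ : integralClosure ℤ ℂ →+* A} {χ : Gamma0 N →* Multiplicative A}

/-- **The traces vanish**, `q² ∣ N`: first degeneracy map. The `r x` are representatives of
`Γ₀(N) \ Γ₀(N / q)`. -/
theorem NewChar.trace_eq_one (h : NewChar g φ χ) (hg : g.IsNewform) (hq : q.Prime)
    (hN : N = q * M) (hqM : q ∣ M) {ι : Type*} [Fintype ι] (hι : Fintype.card ι = q)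
    (r : ι → SL(2, ℤ)) (hr : ∀ x, r x ∈ Gamma0 M)
    (hinj : ∀ x y, r x * (r y)⁻¹ ∈ Gamma0 N → x = y) {γ : SL(2, ℤ)} (hγ : γ ∈ Gamma0 M)
    (γ' : ι → Gamma0 N) (s : ι → ι) (e : ∀ x, r x * γ = (γ' x : SL(2, ℤ)) * r (s x)) :
    ∏ x, χ (γ' x) = 1 := by
  subst hN
  have hM0 : M ≠ 0 := fun h => NeZero.ne (q * M) (by rw [h, mul_zero])
  obtain ⟨H, h1⟩ := opc_reps hq hqM hM0 hι r hr hinj (addOn_ofChar χ) hγ
  have h2 := h.frac.trace_zero_field hg hq rfl hqM hγ
  rw [opc_frac] at h2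
  have h3 := IsFractionRing.injective A (FractionRing A) (h2.trans (map_zero _).symm)
  rw [h3, H.opc_eq (addOn_ofChar χ) hγ (γ := fun x => (γ' x : SL(2, ℤ))) (σ := s)
    (fun x => (γ' x).2) (fun x => by
      have := congrArg (fun m : SL(2, ℤ) => (m : Mat)) (e x)
      simpa only [sl_coe_mul] using this)] at h1
  simp only [ofChar_coe] at h1
  rw [← toAdd_prod] at h1
  exact h1

/-- **The traces vanish**, `q² ∣ N`: second degeneracy map. -/
theorem NewChar.traceU_eq_one (h : NewChar g φ χ) (hg : g.IsNewform) (hq : q.Prime)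
    (hN : N = q * M) (hqM : q ∣ M) {γ : SL(2, ℤ)} (hγ : γ ∈ Gamma0 M)
    (γ' : Fin q → Gamma0 N) (s : Fin q → Fin q)
    (e : ∀ x : Fin q, heckeMatrix q x * mapGL ℝ γ =
      mapGL ℝ (γ' x : SL(2, ℤ)) * heckeMatrix q (s x)) :
    ∏ x, χ (γ' x) = 1 := by
  subst hN
  have H := corr_U hq hqM (dvd_refl (q * M))
  have h2 := h.frac.opU_zero_field hg hq rfl hqM hγ
  rw [opc_frac] at h2
  have h3 := IsFractionRing.injective A (FractionRing A) (h2.trans (map_zero _).symm)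
  have e' : ∀ x, Um q x * (γ : Mat) = ((γ' x : SL(2, ℤ)) : Mat) * Um q (s x) := by
    intro x
    have h4 := congrArg Units.val (e x)
    rw [Units.val_mul, Units.val_mul, val_heckeMatrix' hq.ne_zero, val_heckeMatrix' hq.ne_zero]
      at h4
    have e1 : ∀ g : SL(2, ℤ), (mapGL ℝ g : GL (Fin 2) ℝ).1 = (g : Mat).map (Int.cast : ℤ → ℝ) := by
      intro g
      rfl
    rw [e1, e1] at h4
    have h5 : ((Um q x * (γ : Mat)).map (Int.castRingHom ℝ)) =
        ((((γ' x : SL(2, ℤ)) : Mat) * Um q (s x)).map (Int.castRingHom ℝ)) := by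
      rw [Matrix.map_mul, Matrix.map_mul]
      exact h4
    exact Matrix.map_injective (f := Int.castRingHom ℝ) Int.cast_injective h5
  rw [H.opc_eq (addOn_ofChar χ) hγ (γ := fun x => (γ' x : SL(2, ℤ))) (σ := s)
    (fun x => (γ' x).2) e'] at h3
  simp only [ofChar_coe] at h3
  rw [← toAdd_prod] at h3
  exact h3

/-- **`U_q` and `w_q` on the characters**, `q ‖ N` -/
theorem NewChar.sign_char (h : NewChar g φ χ) (hχ : χ ≠ 1) (hg : g.IsNewform) (hq : q.Prime)
    {K : ℕ} (hN : N = q * K) (hqK : ¬ q ∣ K) :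
    ∃ ε : ℤ, (ε = 1 ∨ ε = -1) ∧ qCoeff g q = ε ∧ φ (aO g q) = ε ∧
      (∀ (B : Type) [CommGroup B] (f : Multiplicative A →* B),
        heckeCharU hq.ne_zero (hN ▸ dvd_mul_right _ _) (f.comp χ) = (f.comp χ) ^ ε) ∧
      (∀ (B : Type) [CommGroup B] (f : Multiplicative A →* B) (M : ℕ) [NeZero q] [NeZero M]
        (Bz : LG.Bez q M) (hK : K ∣ M), Bz.wChar hK hN (f.comp χ) = (f.comp χ) ^ (-ε)) := by
  obtain ⟨ε, hε, h1, h2⟩ := h.sign hχ hg hq hN hqK
  refine ⟨ε, hε, h1, h2, fun B _ f => ?_, fun B _ f M _ _ Bz hK => ?_⟩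
  · rw [heckeCharU, CosetSys.trans_comp]
    ext γ
    have h3 := h.U q hq (hN ▸ dvd_mul_right _ _) γ
    rw [h2] at h3
    have h4 : heckeCharU hq.ne_zero (hN ▸ dvd_mul_right _ _) χ γ = χ γ ^ ε := by
      refine (congrArg ofAdd h3).trans ?_
      rw [← zsmul_eq_mul]
      rfl
    change f (heckeCharU hq.ne_zero (hN ▸ dvd_mul_right _ _) χ γ) = (f (χ γ)) ^ ε
    rw [h4, map_zpow]
  · rw [LG.Bez.wChar, CosetSys.trans_comp]
    ext γ
    have h3 := h.wChar hg hq Bz hK hN γ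
    rw [h2] at h3
    have h4 : Bz.wChar hK hN χ γ = χ γ ^ (-ε) := by
      refine (congrArg ofAdd h3).trans ?_
      rw [← neg_mul, ← Int.cast_neg, ← zsmul_eq_mul]
      rfl
    change f (Bz.wChar hK hN χ γ) = (f (χ γ)) ^ (-ε)
    rw [h4, map_zpow]

/-- **`U_q = 0` on the characters**, `q² ∣ N` -/
theorem NewChar.U_eq_one (h : NewChar g φ χ) (hχ : χ ≠ 1) (hg : g.IsNewform) (hq : q.Prime)
    (hN : N = q * M) (hqM : q ∣ M) : qCoeff g q = 0 ∧ φ (aO g q) = 0 ∧
      ∀ (B : Type) [CommGroup B] (f : Multiplicative A →* B),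
        heckeCharU hq.ne_zero (hN ▸ dvd_mul_right _ _) (f.comp χ) = 1 := by
  have h1 := h.frac.zero_field (frac_ne_one hχ) hg hq hN hqM
  have hinj : Function.Injective ((algebraMap A (FractionRing A)).comp φ) :=
    injective_of_charZero _
  have h2 : aO g q = 0 := hinj (by rw [h1, map_zero])
  refine ⟨by rw [← coe_aO hg.1 hq, h2]; simp, by rw [h2, map_zero], fun B _ f => ?_⟩
  rw [heckeCharU, CosetSys.trans_comp]
  ext γ
  have h3 := h.U q hq (hN ▸ dvd_mul_right _ _) γ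
  rw [h2, map_zero, zero_mul] at h3
  have h4 : heckeCharU hq.ne_zero (hN ▸ dvd_mul_right _ _) χ γ = 1 := h3
  change f (heckeCharU hq.ne_zero (hN ▸ dvd_mul_right _ _) χ γ) = 1
  rw [h4, map_one]

omit [IsDomain A] [CharZero A] [NeZero N] in
/-- `T_l` on the characters -/
theorem NewChar.T_char (h : NewChar g φ χ) (hl : l.Prime) (hlN : ¬ l ∣ N) {B : Type*}
    [AddCommGroup B] (f : A →+ B) (γ : Gamma0 N) :
    toAdd (heckeChar hl hlN ((AddMonoidHom.toMultiplicative f).comp χ) γ) =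
      f (φ (aO g l) * toAdd (χ γ)) := by
  rw [heckeChar, CosetSys.trans_comp, ← h.T l hl hlN γ]
  rfl

end Fermat.Agent.NF
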