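import Fermat.Agent.RT.HeckeG

set_option autoImplicit false

/-!
# Operators on homomorphisms `Γ₀(N) → A`: `T_l`, `U_q`, `w_q`, traces to level `N/q`
-/

open Matrix CongruenceSubgroup
open scoped MatrixGroups

namespace Fermat.Agent.NF

open Fermat.Agent.RT.Ihara

variable {A : Type*} [AddCommGroup A] {N M q l : ℕ}

/-- cancellation: `A = h B` with `N ∣ A₁₀, B₁₀` and `det B` prime to `N` gives `h ∈ Γ₀(N)` -/
theorem mem_of_eq_mul {X B : Mat} {h : SL(2, ℤ)} (e : X = (h : Mat) * B) (hX : (N : ℤ) ∣ X 1 0)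
    (hB : (N : ℤ) ∣ B 1 0) (hdet : IsCoprime (N : ℤ) B.det) : h ∈ Gamma0 N := by
  rw [mem_G0]
  have e10 := congrFun (congrFun e 1) 0
  have e11 := congrFun (congrFun e 1) 1
  simp only [Matrix.mul_apply, Fin.sum_univ_two] at e10 e11
  refine hdet.dvd_of_dvd_mul_left (z := h 1 0) ?_
  have h2 : B.det * h 1 0 = X 1 0 * B 1 1 - X 1 1 * B 1 0 := by
    rw [Matrix.det_fin_two, e10, e11]
    ring
  rw [h2]
  exact dvd_sub (hX.mul_right _) (hB.mul_left _)

theorem coprime_of_prime (hl : l.Prime) (hN : ¬ l ∣ N) : IsCoprime (N : ℤ) (l : ℤ) :=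
  Nat.isCoprime_iff_coprime.mpr ((Nat.Prime.coprime_iff_not_dvd hl).mpr hN).symm

theorem Mx_10' (x : Option (Fin l)) : (N : ℤ) ∣ (Mx l x) 1 0 := by
  rw [Mx_10]
  exact dvd_zero _

/-- the correspondence `T_l` -/
theorem corr_T (hl : l.Prime) (hN : ¬ l ∣ N) : Corr (Gamma0 N) (Gamma0 N) (Mx l) where
  det x := Mx_det_ne hl.ne_zero x
  act x g hg := by
    obtain ⟨y, h, e⟩ := exists_herm hl (Mx l x * (g : Mat))
      (by rw [Matrix.det_mul, Mx_det, g.det_coe, mul_one])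
    refine ⟨y, h, mem_of_eq_mul e ?_ (Mx_10' y) (by rw [Mx_det]; exact coprime_of_prime hl hN), e⟩
    have e10 : (Mx l x * (g : Mat)) 1 0 = Mx l x 1 0 * g 0 0 + Mx l x 1 1 * g 1 0 := by
      simp [Matrix.mul_apply, Fin.sum_univ_two]
    rw [e10]
    exact dvd_add ((Mx_10' x).mul_right _) ((mem_G0.mp hg).mul_left _)
  inj x y g hg e := herm_unique hl e

/-- the matrices of `U_q` -/
def Um (q : ℕ) (j : Fin q) : Mat := !![1, ((j : ℕ) : ℤ); 0, q]

theorem Um_eq (j : Fin q) : Um q j = Mx q (some j) := rfl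

theorem Um_det (j : Fin q) : (Um q j).det = q := by simp [Um, Matrix.det_fin_two]

theorem exists_fin_mod (hq : 0 < q) (z : ℤ) : ∃ (j : Fin q) (k : ℤ), z = (j : ℕ) + q * k := by
  have hq0 : (q : ℤ) ≠ 0 := by exact_mod_cast hq.ne'
  have h3 := Int.emod_lt_of_pos z (by exact_mod_cast hq : (0 : ℤ) < q)
  have h4 := Int.emod_nonneg z hq0
  have h5 : (((z % q).toNat : ℕ) : ℤ) = z % q := Int.toNat_of_nonneg h4
  refine ⟨⟨(z % q).toNat, by omega⟩, z / q, ?_⟩
  have h6 := Int.emod_add_mul_ediv z q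
  change z = (((z % q).toNat : ℕ) : ℤ) + q * (z / q)
  rw [h5]
  linarith

/-- the correspondence `U_q`, from level `N` to level `M` (`M = N` or `N / q`) -/
theorem corr_U (hq : q.Prime) (hqM : q ∣ M) (hN : N ∣ q * M) :
    Corr (Gamma0 N) (Gamma0 M) (Um q) where
  det j := by rw [Um_det]; exact_mod_cast hq.ne_zero
  act j g hg := by
    obtain ⟨c, hc⟩ := mem_G0.mp hg
    obtain ⟨m, hm⟩ := hqM
    have hdet := det2 g
    -- choose `j'` with `a j' ≡ b + j d`
    obtain ⟨j', t, hj'⟩ : ∃ (j' : Fin q) (t : ℤ),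
        g 0 1 + j * g 1 1 - (g 0 0 + j * g 1 0) * (j' : ℕ) = q * t := by
      obtain ⟨j', k, hk⟩ := exists_fin_mod hq.pos (g 1 1 * (g 0 1 + j * g 1 1))
      refine ⟨j', (g 0 0 + j * g 1 0) * k - (m : ℤ) * c * (g 0 1 + j * g 1 1) ^ 2, ?_⟩
      have hM : (M : ℤ) = q * m := by exact_mod_cast hm
      rw [hM] at hc
      linear_combination (-(g 0 1 + j * g 1 1)) * hdet - (g 0 1 + j * g 1 1) ^ 2 * hc +
        (g 0 0 + j * g 1 0) * hk
    obtain ⟨n, hn⟩ := hN
    refine ⟨j', sl (g 0 0 + j * g 1 0) t (q * g 1 0) (g 1 1 - g 1 0 * (j' : ℕ)) ?_, ?_, ?_⟩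
    · linear_combination hdet + g 1 0 * hj'
    · rw [mem_G0, sl_10, hc]
      have : ((q * M : ℕ) : ℤ) = ((N * n : ℕ) : ℤ) := by rw [hn]
      push_cast at this
      exact ⟨n * c, by linear_combination c * this⟩
    · ext a b
      fin_cases a <;> fin_cases b <;> simp [Um, Matrix.mul_apply, Fin.sum_univ_two]
      · linear_combination hj'
      · ring
  inj i j g _ e := by
    have h1 := herm_unique hq (x := some i) (y := some j) e
    exact Option.some.inj h1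

/-! ### The Atkin-Lehner correspondence -/

/-- the matrix of `w_q`, `q w - M y = 1` -/
def Wm (q M : ℕ) (w y : ℤ) : Mat := !![(q : ℤ), y; q * M, q * w]

theorem Wm_det {w y : ℤ} (hb : q * w - M * y = 1) : (Wm q M w y).det = q := by
  rw [Wm, Matrix.det_fin_two_of]
  linear_combination (q : ℤ) * hb

/-- `W g = g' W` -/
theorem exists_Wconj {w y : ℤ} (hb : q * w - M * y = 1) {g : SL(2, ℤ)}
    (hg : g ∈ Gamma0 (q * M)) : ∃ g' ∈ Gamma0 (q * M), Wm q M w y * (g : Mat) =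
      (g' : Mat) * Wm q M w y := by
  obtain ⟨c, hc⟩ := mem_G0.mp hg
  push_cast at hc
  have hdet := det2 g
  refine ⟨sl ((q * g 0 0 + y * g 1 0) * w - (q * g 0 1 + y * g 1 1) * M)
    (-(g 0 0 * y) - y ^ 2 * M * c + q * g 0 1 + y * g 1 1)
    (q * M * ((g 0 0 + w * q * c) * w - (M * g 0 1 + w * g 1 1)))
    (-((M * g 0 0 + w * g 1 0) * y) + (M * g 0 1 + w * g 1 1) * q) ?_, ?_, ?_⟩
  · rw [hc] at hdet ⊢
    linear_combination (q * w - M * y) ^ 2 * hdet + (q * w - M * y + 1) * hb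
  · rw [mem_G0, sl_10]
    push_cast
    exact dvd_mul_right _ _
  · ext a b
    fin_cases a <;> fin_cases b <;> simp [Wm, Matrix.mul_apply, Fin.sum_univ_two]
    · rw [hc]
      linear_combination (-(q * g 0 0 + y * (q * M * c))) * hb
    · rw [hc]
      linear_combination (-(q * g 0 1 + y * g 1 1)) * hb
    · rw [hc]
      linear_combination (-(q * M * g 0 0 + q * w * (q * M * c))) * hb
    · rw [hc]
      linear_combination (-(q * M * g 0 1 + q * w * g 1 1)) * hb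

/-- the correspondence `w_q` -/
theorem corr_W (hq : q ≠ 0) {w y : ℤ} (hb : q * w - M * y = 1) :
    Corr (Gamma0 (q * M)) (Gamma0 (q * M)) (fun _ : Unit => Wm q M w y) where
  det _ := by
    rw [Wm_det hb]
    exact_mod_cast hq
  act _ g hg := by
    obtain ⟨g', hg', e⟩ := exists_Wconj hb hg
    exact ⟨(), g', hg', e⟩
  inj _ _ _ _ _ := rfl

/-- the square of `w_q` -/
theorem Wm_sq {w y : ℤ} (hb : q * w - M * y = 1) : ∃ g ∈ Gamma0 (q * M),
    Wm q M w y * Wm q M w y = (q : ℤ) • (g : Mat) := by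
  refine ⟨sl (q + M * y) (y * (1 + w)) (q * M * (1 + w)) (M * y + q * w ^ 2) ?_, ?_, ?_⟩
  · linear_combination (q * w - M * y + 1) * hb
  · rw [mem_G0, sl_10]
    push_cast
    exact dvd_mul_right _ _
  · ext a b
    fin_cases a <;> fin_cases b <;> simp [Wm, Matrix.mul_apply, Fin.sum_univ_two] <;> ring

/-! ### Representatives of `Γ₀(qM) \ Γ₀(M)` -/

/-- representatives when `q ∤ M` -/
def R1 (q M : ℕ) (w y : ℤ) : Option (Fin q) → Mat
  | none => 1
  | some j => !![1, y + ((j : ℕ) : ℤ); M, q * w + M * ((j : ℕ) : ℤ)]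

/-- representatives when `q ∣ M` -/
def R2 (q M : ℕ) (j : Fin q) : Mat := !![1, 0; M * ((j : ℕ) : ℤ), 1]

theorem R1_coe {w y : ℤ} (hb : q * w - M * y = 1) (x : Option (Fin q)) :
    ∃ r ∈ Gamma0 M, R1 q M w y x = (r : Mat) := by
  rcases x with _ | j
  · exact ⟨1, one_mem _, rfl⟩
  · exact ⟨sl 1 (y + ((j : ℕ) : ℤ)) M (q * w + M * ((j : ℕ) : ℤ)) (by linear_combination hb),
      by rw [mem_G0, sl_10], rfl⟩

theorem R2_coe (j : Fin q) : ∃ r ∈ Gamma0 M, R2 q M j = (r : Mat) :=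
  ⟨sl 1 0 (M * ((j : ℕ) : ℤ)) 1 (by ring), by rw [mem_G0, sl_10]; exact dvd_mul_right _ _, rfl⟩

theorem inv_00 (g : SL(2, ℤ)) : (g⁻¹) 0 0 = g 1 1 := by simp [adjugate_fin_two]
theorem inv_01 (g : SL(2, ℤ)) : (g⁻¹) 0 1 = -g 0 1 := by simp [adjugate_fin_two]
theorem inv_10 (g : SL(2, ℤ)) : (g⁻¹) 1 0 = -g 1 0 := by simp [adjugate_fin_two]
theorem inv_11 (g : SL(2, ℤ)) : (g⁻¹) 1 1 = g 0 0 := by simp [adjugate_fin_two]

theorem corr_of_cosets {κ : Type*} {R : κ → Mat} (r : κ → SL(2, ℤ)) (hr : ∀ x, R x = (r x : Mat))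
    (hrM : ∀ x, r x ∈ Gamma0 M) (hex : ∀ g ∈ Gamma0 M, ∃ x, g * (r x)⁻¹ ∈ Gamma0 N)
    (huniq : ∀ x y, r x * (r y)⁻¹ ∈ Gamma0 N → x = y) : Corr (Gamma0 N) (Gamma0 M) R where
  det x := by rw [hr, (r x).det_coe]; norm_num
  act x g hg := by
    obtain ⟨y, hy⟩ := hex (r x * g) (mul_mem (hrM x) hg)
    refine ⟨y, _, hy, ?_⟩
    rw [hr, hr, ← sl_coe_mul, ← sl_coe_mul, inv_mul_cancel_right]
  inj x y g hg e := by
    refine huniq x y ?_
    rw [hr, hr, ← sl_coe_mul] at e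
    have e2 : r x = g * r y := Subtype.ext e
    rw [e2, mul_inv_cancel_right]
    exact hg

theorem corr_R2 (hq : q.Prime) (hqM : q ∣ M) (hM : M ≠ 0) :
    Corr (Gamma0 (q * M)) (Gamma0 M) (R2 q M) := by
  have hM' : (M : ℤ) ≠ 0 := by exact_mod_cast hM
  refine corr_of_cosets (fun j => sl 1 0 (M * ((j : ℕ) : ℤ)) 1 (by ring)) (fun _ => rfl)
    (fun j => by rw [mem_G0, sl_10]; exact dvd_mul_right _ _) (fun g hg => ?_) fun i j h => ?_
  · obtain ⟨c, hc⟩ := mem_G0.mp hg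
    have hdet := det2 g
    obtain ⟨m, hm⟩ := hqM
    have hm' : (M : ℤ) = q * m := by exact_mod_cast hm
    obtain ⟨j, k, hk⟩ := exists_fin_mod hq.pos (g 0 0 * c)
    refine ⟨j, ?_⟩
    rw [mem_G0, sl_mul_10, inv_00, inv_10]
    simp only [sl_11, sl_10]
    push_cast
    refine ⟨g 1 1 * k - g 0 1 * m * c * c, ?_⟩
    rw [hc]
    rw [hc, hm'] at hdet
    have e1 : (g 0 0 * c - q * k : ℤ) = (j : ℕ) := by linarith
    rw [← e1, hm']
    linear_combination (-(q * m * c : ℤ)) * hdet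
  · rw [mem_G0, sl_mul_10, inv_00, inv_10] at h
    simp only [sl_11, sl_10] at h
    have h2 : (q : ℤ) ∣ ((i : ℕ) : ℤ) - ((j : ℕ) : ℤ) := by
      refine Int.dvd_of_mul_dvd_mul_left hM' ?_
      obtain ⟨t, ht⟩ := h
      push_cast at ht
      exact ⟨t, by linear_combination ht⟩
    have h5 : ((i : ℕ) : ZMod q) = ((j : ℕ) : ZMod q) := by
      have := (ZMod.intCast_zmod_eq_zero_iff_dvd _ _).mpr h2
      push_cast at this
      exact sub_eq_zero.mp this
    rw [ZMod.natCast_eq_natCast_iff', Nat.mod_eq_of_lt i.2, Nat.mod_eq_of_lt j.2] at h5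
    exact Fin.ext h5

/-- the representatives in `Γ₀(M)` -/
def r1 {q M : ℕ} {w y : ℤ} (hb : q * w - M * y = 1) : Option (Fin q) → SL(2, ℤ)
  | none => 1
  | some j => sl 1 (y + ((j : ℕ) : ℤ)) M (q * w + M * ((j : ℕ) : ℤ)) (by linear_combination hb)

theorem corr_R1 (hq : q.Prime) (hM : M ≠ 0) {w y : ℤ} (hb : q * w - M * y = 1) :
    Corr (Gamma0 (q * M)) (Gamma0 M) (R1 q M w y) := by
  have hM' : (M : ℤ) ≠ 0 := by exact_mod_cast hM
  have hqM : IsCoprime (q : ℤ) (M : ℤ) := ⟨w, -y, by linear_combination hb⟩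
  refine corr_of_cosets (r1 hb) (fun x => ?_) (fun x => ?_) (fun g hg => ?_) fun x y h => ?_
  · rcases x with _ | j <;> rfl
  · rcases x with _ | j
    · exact one_mem _
    · rw [mem_G0]
      exact dvd_rfl
  · obtain ⟨c, hc⟩ := mem_G0.mp hg
    have hdet := det2 g
    by_cases hqc : (q : ℤ) ∣ c
    · refine ⟨none, ?_⟩
      change g * (1 : SL(2, ℤ))⁻¹ ∈ _
      rw [inv_one, mul_one, mem_G0, hc]
      obtain ⟨k, rfl⟩ := hqc
      push_cast
      exact ⟨k, by ring⟩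
    · have hqc' : IsCoprime (q : ℤ) (M * c) := by
        refine IsCoprime.mul_right hqM ?_
        rcases (Nat.prime_iff_prime_int.mp hq).coprime_iff_not_dvd.mpr hqc with h
        exact h
      obtain ⟨u, v, huv⟩ := hqc'
      -- `v M c ≡ 1`
      obtain ⟨j, k, hk⟩ := exists_fin_mod hq.pos (v * (g 1 1 - c * (q * w)))
      refine ⟨some j, ?_⟩
      rw [mem_G0, sl_mul_10, inv_00, inv_10]
      change ((q * M : ℕ) : ℤ) ∣ g 1 0 * (q * w + M * ((j : ℕ) : ℤ)) + g 1 1 * -(M : ℤ)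
      push_cast
      refine ⟨c * w - u * (g 1 1 - c * (q * w)) - c * M * k - c * w, ?_⟩
      rw [hc]
      have e1 : (v * (g 1 1 - c * (q * w)) - q * k : ℤ) = (j : ℕ) := by linarith
      rw [← e1]
      linear_combination (M * (g 1 1 - c * (q * w)) : ℤ) * huv
  · rcases x with _ | i <;> rcases y with _ | j
    · rfl
    · exfalso
      rw [mem_G0, sl_mul_10, inv_00, inv_10] at h
      change ((q * M : ℕ) : ℤ) ∣ 0 * (q * w + M * ((j : ℕ) : ℤ)) + 1 * -(M : ℤ) at h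
      rw [zero_mul, zero_add, one_mul, dvd_neg] at h
      have h2 := Int.natCast_dvd_natCast.mp h
      have h3 := Nat.le_of_dvd (Nat.pos_of_ne_zero hM) h2
      have h4 := hq.two_le
      have h5 := Nat.pos_of_ne_zero hM
      nlinarith
    · exfalso
      rw [mem_G0, sl_mul_10, inv_00, inv_10] at h
      change ((q * M : ℕ) : ℤ) ∣ (M : ℤ) * 1 + (q * w + M * ((i : ℕ) : ℤ)) * -0 at h
      rw [neg_zero, mul_zero, add_zero, mul_one] at h
      have h2 := Int.natCast_dvd_natCast.mp h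
      have h3 := Nat.le_of_dvd (Nat.pos_of_ne_zero hM) h2
      have h4 := hq.two_le
      have h5 := Nat.pos_of_ne_zero hM
      nlinarith
    · rw [mem_G0, sl_mul_10, inv_00, inv_10] at h
      change ((q * M : ℕ) : ℤ) ∣ (M : ℤ) * (q * w + M * ((j : ℕ) : ℤ)) +
        (q * w + M * ((i : ℕ) : ℤ)) * -(M : ℤ) at h
      have h2 : (q : ℤ) ∣ M * (((i : ℕ) : ℤ) - ((j : ℕ) : ℤ)) := by
        refine Int.dvd_of_mul_dvd_mul_left hM' ?_
        obtain ⟨t, ht⟩ := h
        push_cast at ht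
        exact ⟨-t, by linear_combination -ht⟩
      have h2' := hqM.dvd_of_dvd_mul_left h2
      have h5 : ((i : ℕ) : ZMod q) = ((j : ℕ) : ZMod q) := by
        have := (ZMod.intCast_zmod_eq_zero_iff_dvd _ _).mpr h2'
        push_cast at this
        exact sub_eq_zero.mp this
      rw [ZMod.natCast_eq_natCast_iff', Nat.mod_eq_of_lt i.2, Nat.mod_eq_of_lt j.2] at h5
      exact congrArg some (Fin.ext h5)

end Fermat.Agent.NF
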