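import Fermat.Agent.NF.Comm

set_option autoImplicit false

/-!
# Relations between `w_q`, `U_q` and the traces; parabolic homomorphisms
-/

open Matrix CongruenceSubgroup
open scoped MatrixGroups

namespace Fermat.Agent.NF

open Fermat.Agent.RT.Ihara

variable {A : Type*} [AddCommGroup A] {N M q l : ℕ} {G₁ G₂ G : Subgroup SL(2, ℤ)}

/-- `w_q` on functions -/
noncomputable abbrev opW (q M : ℕ) (w y : ℤ) (c : SL(2, ℤ) → A) : SL(2, ℤ) → A :=
  opc (Gamma0 (q * M)) (fun _ : Unit => Wm q M w y) c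

/-- `w_q` is the composition with the conjugation by `W` -/
theorem opW_eq (hq : q ≠ 0) {w y : ℤ} (hb : q * w - M * y = 1) {c : SL(2, ℤ) → A}
    (hc : AddOn (Gamma0 (q * M)) c) {g g' : SL(2, ℤ)} (hg : g ∈ Gamma0 (q * M))
    (hg' : g' ∈ Gamma0 (q * M)) (e : Wm q M w y * (g : Mat) = (g' : Mat) * Wm q M w y) :
    opW q M w y c g = c g' := by
  rw [opW, (corr_W hq hb).opc_eq hc hg (γ := fun _ => g') (σ := id) (fun _ => hg') (fun _ => e)]
  simp

theorem opW_opW (hq : q ≠ 0) {w y : ℤ} (hb : q * w - M * y = 1) {c : SL(2, ℤ) → A}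
    (hc : AddOn (Gamma0 (q * M)) c) {g : SL(2, ℤ)} (hg : g ∈ Gamma0 (q * M)) :
    opW q M w y (opW q M w y c) g = c g := by
  have hq' : (0 : ℤ) < q := by exact_mod_cast Nat.pos_of_ne_zero hq
  have hs := isPrim_prim hc
  obtain ⟨γ, hγ, e⟩ := Wm_sq (q := q) (M := M) hb
  have hdet : ∀ m : Mat, m.det ≠ 0 → prim (Gamma0 (q * M)) c (Wm q M w y * (Wm q M w y * m)) =
      c γ + prim (Gamma0 (q * M)) c m := by
    intro m hm
    rw [← mul_assoc, e, Matrix.smul_mul, hs.scal _ hq', hs.mul γ hγ m hm]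
    rw [Matrix.det_mul, γ.det_coe, one_mul]
    exact hm
  rw [opW, opW, (corr_W hq hb).opc_comp (corr_W hq hb) hs hg]
  simp only [Finset.univ_unique, Finset.sum_const, Finset.card_singleton, one_smul]
  have h1 := hdet 1 (by simp)
  rw [mul_one] at h1
  rw [h1, hdet _ (by rw [g.det_coe]; norm_num), hs.mul g hg 1 (by simp) |> (by
    intro h; rw [mul_one] at h; exact h : _ → prim (Gamma0 (q * M)) c (g : Mat) =
      c g + prim (Gamma0 (q * M)) c 1)]
  abel

theorem Wm_mul_Um {w y : ℤ} (j : Fin q) :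
    Wm q M w y * Um q j = (q : ℤ) • R1 q M w y (some j) := by
  ext a b
  fin_cases a <;> fin_cases b <;> simp [Wm, Um, R1, Matrix.mul_apply, Fin.sum_univ_two] <;> ring

/-- the trace to level `M`, restricted to `Γ₀(qM)`, is `1 + U_q w_q` -/
theorem opc_R1 (hq : q.Prime) (hM : M ≠ 0) {w y : ℤ} (hb : q * w - M * y = 1) {c : SL(2, ℤ) → A}
    (hc : AddOn (Gamma0 (q * M)) c) {g : SL(2, ℤ)} (hg : g ∈ Gamma0 (q * M)) :
    opc (Gamma0 (q * M)) (R1 q M w y) c g =
      c g + opc (Gamma0 (q * M)) (Um q) (opW q M w y c) g := by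
  have hq' : (0 : ℤ) < q := by exact_mod_cast hq.pos
  have hgM : g ∈ Gamma0 M := by
    rw [mem_G0] at hg ⊢
    exact dvd_trans (by push_cast; exact dvd_mul_left _ _) hg
  have hs := isPrim_prim hc
  have hU : Corr (Gamma0 (q * M)) (Gamma0 (q * M)) (Um q) :=
    corr_U hq (dvd_mul_right _ _) (dvd_mul_left _ _)
  rw [(corr_R1 hq hM hb).opc_eq_prim hs hgM, opW, (corr_W hq.ne_zero hb).opc_comp hU hs hg,
    Fintype.sum_option]
  have h1 : ∀ (j : Fin q) (m : Mat), m.det ≠ 0 →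
      prim (Gamma0 (q * M)) c (Wm q M w y * (Um q j * m)) =
      prim (Gamma0 (q * M)) c (R1 q M w y (some j) * m) := by
    intro j m hm
    rw [← mul_assoc, Wm_mul_Um, Matrix.smul_mul, hs.scal _ hq']
    rw [Matrix.det_mul]
    exact mul_ne_zero ((corr_R1 hq hM hb).det _) hm
  have h2 : ∀ j : Fin q, prim (Gamma0 (q * M)) c (Wm q M w y * Um q j) =
      prim (Gamma0 (q * M)) c (R1 q M w y (some j)) := by
    intro j
    have := h1 j 1 (by simp)
    rwa [mul_one, mul_one] at this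
  simp only [Finset.univ_unique, Finset.sum_const, Finset.card_singleton, one_smul, h2,
    h1 _ (g : Mat) (by rw [g.det_coe]; norm_num), Finset.sum_sub_distrib]
  have h3 : prim (Gamma0 (q * M)) c (R1 q M w y none * (g : Mat)) -
      prim (Gamma0 (q * M)) c (R1 q M w y none) = c g := by
    rw [hs.val hg]
    congr 2
    exact one_mul _
  rw [h3]

/-- the trace of `w_q c`, restricted to `Γ₀(qM)`, is `w_q + U_q` -/
theorem opc_R1_W (hq : q.Prime) (hM : M ≠ 0) {w y : ℤ} (hb : q * w - M * y = 1)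
    {c : SL(2, ℤ) → A} (hc : AddOn (Gamma0 (q * M)) c) {g : SL(2, ℤ)}
    (hg : g ∈ Gamma0 (q * M)) : opc (Gamma0 (q * M)) (R1 q M w y) (opW q M w y c) g =
      opW q M w y c g + opc (Gamma0 (q * M)) (Um q) c g := by
  have hc' : AddOn (Gamma0 (q * M)) (opW q M w y c) := (corr_W hq.ne_zero hb).addOn hc
  have hc'' : AddOn (Gamma0 (q * M)) (opW q M w y (opW q M w y c)) :=
    (corr_W hq.ne_zero hb).addOn hc'
  rw [opc_R1 hq hM hb hc' hg]
  congr 1
  exact (corr_U hq (dvd_mul_right _ _) (dvd_mul_left _ _)).opc_congr hc''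
    (fun g hg => opW_opW hq.ne_zero hb hc hg) hg

/-! ### Parabolic homomorphisms -/

/-- vanishing on the parabolic elements -/
def Parab (G : Subgroup SL(2, ℤ)) (c : SL(2, ℤ) → A) : Prop :=
  ∀ g ∈ G, (g : Mat).trace ^ 2 = 4 → c g = 0

theorem trace_pow_par {g : SL(2, ℤ)} (hg : (g : Mat).trace ^ 2 = 4) (n : ℕ) :
    ((g ^ n : SL(2, ℤ)) : Mat).trace ^ 2 = 4 := by
  obtain ⟨e, he, ht⟩ : ∃ e : ℤ, e ^ 2 = 1 ∧ (g : Mat).trace = 2 * e := by
    have h1 : ((g : Mat).trace - 2) * ((g : Mat).trace + 2) = 0 := by linear_combination hg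
    rcases mul_eq_zero.mp h1 with h | h
    · exact ⟨1, by norm_num, by linarith⟩
    · exact ⟨-1, by norm_num, by linarith⟩
  have hch : (g : Mat) * (g : Mat) = (2 * e) • (g : Mat) - 1 := by
    have hdet := det2 g
    rw [Matrix.trace_fin_two] at ht
    have o00 : (1 : Mat) 0 0 = 1 := rfl
    have o01 : (1 : Mat) 0 1 = 0 := rfl
    have o10 : (1 : Mat) 1 0 = 0 := rfl
    have o11 : (1 : Mat) 1 1 = 1 := rfl
    ext i j
    fin_cases i <;> fin_cases j <;>
      simp only [Matrix.mul_apply, Fin.sum_univ_two, Matrix.sub_apply, Matrix.smul_apply,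
        smul_eq_mul, Fin.zero_eta, Fin.mk_one, Fin.isValue, o00, o01, o10, o11]
    · linear_combination -hdet + g 0 0 * ht
    · linear_combination g 0 1 * ht
    · linear_combination g 1 0 * ht
    · linear_combination -hdet + g 1 1 * ht
  have key : ∀ n : ℕ, ((g ^ n : SL(2, ℤ)) : Mat).trace = 2 * e ^ n := by
    intro n
    induction n using Nat.twoStepInduction with
    | zero => simp
    | one => rw [pow_one, pow_one, ht]
    | more n h1 h2 =>
      have e3 : ((g ^ (n + 2) : SL(2, ℤ)) : Mat) =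
          (2 * e) • ((g ^ (n + 1) : SL(2, ℤ)) : Mat) - ((g ^ n : SL(2, ℤ)) : Mat) := by
        rw [pow_add g n 2, pow_succ g n, sl_coe_mul, sl_coe_mul, pow_two, sl_coe_mul, hch,
          Matrix.mul_sub, Matrix.mul_smul, mul_one]
      rw [e3, Matrix.trace_sub, Matrix.trace_smul, h1, h2, smul_eq_mul]
      linear_combination (2 * e ^ n) * he
  rw [key, mul_pow, ← pow_mul, mul_comm n 2, pow_mul, he, one_pow]
  norm_num

theorem Corr.parab {ι : Type*} [Fintype ι] {D : ι → Mat} (H : Corr G₁ G₂ D)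
    [IsAddTorsionFree A] {c : SL(2, ℤ) → A} (hc : AddOn G₁ c) (hp : Parab G₁ c) :
    Parab G₂ (opc G₁ D c) := by
  intro g hg ht
  obtain ⟨σ, γ, hγ, e⟩ := H.exists_perm hg
  -- iterate
  have hit : ∀ n : ℕ, ∀ x, ∃ γ' ∈ G₁, D x * ((g ^ n : SL(2, ℤ)) : Mat) =
      (γ' : Mat) * D ((σ ^ n) x) := by
    intro n
    induction n with
    | zero => intro x; exact ⟨1, one_mem _, by simp⟩
    | succ n ih =>
      intro x
      obtain ⟨γ', hγ', e'⟩ := ih x
      refine ⟨γ' * γ ((σ ^ n) x), mul_mem hγ' (hγ _), ?_⟩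
      rw [pow_succ g n, sl_coe_mul, ← mul_assoc, e', mul_assoc, e, sl_coe_mul, mul_assoc,
        pow_succ' σ n]
      rfl
  set n := orderOf σ with hn
  have hn0 : 0 < n := orderOf_pos σ
  choose γ' hγ' e' using hit n
  have hσ : σ ^ n = 1 := pow_orderOf_eq_one σ
  have h1 := H.opc_eq hc (pow_mem hg n) hγ' e'
  have h2 : ∀ x, c (γ' x) = 0 := by
    intro x
    refine hp _ (hγ' x) ?_
    have h3 := e' x
    rw [hσ, Equiv.Perm.one_apply] at h3
    have h4 : (D x).det * (γ' x : Mat).trace = (D x).det * ((g ^ n : SL(2, ℤ)) : Mat).trace := by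
      have h5 : ((γ' x : Mat) * D x * adjugate (D x)).trace =
          (D x * ((g ^ n : SL(2, ℤ)) : Mat) * adjugate (D x)).trace := by rw [h3]
      have h6 : ((γ' x : Mat) * D x * adjugate (D x)) = (D x).det • (γ' x : Mat) := by
        rw [mul_assoc, Matrix.mul_adjugate, Matrix.mul_smul, mul_one]
      have h7 : (D x * ((g ^ n : SL(2, ℤ)) : Mat) * adjugate (D x)).trace =
          ((D x).det • ((g ^ n : SL(2, ℤ)) : Mat)).trace := by
        rw [Matrix.trace_mul_comm, ← mul_assoc, Matrix.adjugate_mul, Matrix.smul_mul, one_mul]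
      rw [h6, h7, Matrix.trace_smul, Matrix.trace_smul] at h5
      exact h5
    have h6 := mul_left_cancel₀ (H.det x) h4
    rw [h6]
    exact trace_pow_par ht n
  rw [Finset.sum_congr rfl fun x _ => h2 x, Finset.sum_const_zero, (H.addOn hc).pow hg] at h1
  exact (smul_eq_zero.mp h1).resolve_left hn0.ne'

end Fermat.Agent.NF
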